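import Mathlib

/-!
# S52, chapter FAM: the abstract linear algebra behind `card_congr`

`G` (the generic fibre), `H₀, H₁` (two special fibres), `σ` on `G` lifting the Frobenius
endomorphisms `φ₀, φ₁`, specialisations `s₀, s₁` injective on 5-torsion, Cayley-Hamilton (up to 2)
on both special fibres and ONE nonzero point of order 5 on `G`: the traces are congruent mod 5.
-/

set_option autoImplicit false

namespace Fermat.Agent.S52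

theorem congAbs_rel {G H : Type*} [AddCommGroup G] [AddCommGroup H]
    (σ : G →+ G) (φ : H →+ H) (s : G →+ H) (h : ∀ P, s (σ P) = φ (s P))
    (i : ∀ P : G, (5 : ℕ) • P = 0 → s P = 0 → P = 0) (a l : ℤ)
    (c : ∀ Q : H, (2 : ℤ) • (φ (φ Q) - a • φ Q + l • Q) = 0)
    (P : G) (hP : (5 : ℕ) • P = 0) : (2 : ℤ) • (σ (σ P) - a • σ P + l • P) = 0 := by
  apply i
  · have e : (5 : ℕ) • ((2 : ℤ) • (σ (σ P) - a • σ P + l • P))
        = (2 : ℤ) • (σ (σ ((5 : ℕ) • P)) - a • σ ((5 : ℕ) • P) + l • ((5 : ℕ) • P)) := by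
      simp only [map_nsmul, smul_add, smul_sub]
      simp only [← natCast_zsmul, smul_smul]
      ring_nf
    rw [e, hP]
    simp
  · rw [map_zsmul, map_add, map_sub, map_zsmul, map_zsmul, h, h]
    exact c (s P)

theorem dvd_sub_of_spec {G H₀ H₁ : Type*} [AddCommGroup G] [AddCommGroup H₀] [AddCommGroup H₁]
    (σ : G →+ G) (hσ : Function.Injective σ)
    (φ₀ : H₀ →+ H₀) (φ₁ : H₁ →+ H₁) (s₀ : G →+ H₀) (s₁ : G →+ H₁)
    (h₀ : ∀ P, s₀ (σ P) = φ₀ (s₀ P)) (h₁ : ∀ P, s₁ (σ P) = φ₁ (s₁ P))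
    (i₀ : ∀ P : G, (5 : ℕ) • P = 0 → s₀ P = 0 → P = 0)
    (i₁ : ∀ P : G, (5 : ℕ) • P = 0 → s₁ P = 0 → P = 0)
    (a₀ a₁ l : ℤ)
    (c₀ : ∀ Q : H₀, (2 : ℤ) • (φ₀ (φ₀ Q) - a₀ • φ₀ Q + l • Q) = 0)
    (c₁ : ∀ Q : H₁, (2 : ℤ) • (φ₁ (φ₁ Q) - a₁ • φ₁ Q + l • Q) = 0)
    (P : G) (hP : (5 : ℕ) • P = 0) (hP0 : P ≠ 0) : (5 : ℤ) ∣ a₀ - a₁ := by
  have r₀ := congAbs_rel σ φ₀ s₀ h₀ i₀ a₀ l c₀ P hP
  have r₁ := congAbs_rel σ φ₁ s₁ h₁ i₁ a₁ l c₁ P hP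
  have hσP : (5 : ℕ) • σ P = 0 := by rw [← map_nsmul, hP, map_zero]
  have hσP0 : σ P ≠ 0 := fun h => hP0 (hσ (h.trans (map_zero σ).symm))
  have : Fact (Nat.Prime 5) := ⟨by norm_num⟩
  have hord : addOrderOf (σ P) = 5 := addOrderOf_eq_prime hσP hσP0
  have e : (2 * (a₀ - a₁)) • σ P = 0 := by
    have : (2 * (a₀ - a₁)) • σ P = (2 : ℤ) • (σ (σ P) - a₁ • σ P + l • P)
        - (2 : ℤ) • (σ (σ P) - a₀ • σ P + l • P) := by
      rw [← smul_sub, mul_smul, sub_smul]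
      congr 1
      abel
    rw [this, r₀, r₁, sub_zero]
  have hd := (addOrderOf_dvd_iff_zsmul_eq_zero).2 e
  rw [hord] at hd
  have hd' : (5 : ℤ) ∣ 2 * (a₀ - a₁) := by exact_mod_cast hd
  exact (IsCoprime.dvd_of_dvd_mul_left (by norm_num : IsCoprime (5 : ℤ) 2) hd')

/-- (helper24's variant of `dvd_sub_of_spec`, used by `Cong.lean`.) -/
theorem five_dvd_of_two_fibres {G G₀ G₁ : Type*} [AddCommGroup G] [AddCommGroup G₀]
    [AddCommGroup G₁] (σ : G →+ G) (φ₀ : G₀ →+ G₀) (φ₁ : G₁ →+ G₁) (s₀ : G →+ G₀) (s₁ : G →+ G₁)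
    (hs₀ : ∀ P, s₀ (σ P) = φ₀ (s₀ P)) (hs₁ : ∀ P, s₁ (σ P) = φ₁ (s₁ P))
    (hi₀ : ∀ P, (5 : ℕ) • P = 0 → s₀ P = 0 → P = 0)
    (hi₁ : ∀ P, (5 : ℕ) • P = 0 → s₁ P = 0 → P = 0)
    (hσ : Function.Injective σ) (a₀ a₁ l : ℤ)
    (h₀ : ∀ Q, (2 : ℤ) • (φ₀ (φ₀ Q) - a₀ • φ₀ Q + l • Q) = 0)
    (h₁ : ∀ Q, (2 : ℤ) • (φ₁ (φ₁ Q) - a₁ • φ₁ Q + l • Q) = 0)
    (P : G) (hP : P ≠ 0) (h5 : (5 : ℕ) • P = 0) : (5 : ℤ) ∣ a₁ - a₀ := by
  set R : G := σ (σ P) - a₀ • σ P + l • P with hR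
  have h5R : (5 : ℕ) • R = 0 := by
    have e : (5 : ℕ) • R = σ (σ ((5 : ℕ) • P)) - a₀ • σ ((5 : ℕ) • P) + l • ((5 : ℕ) • P) := by
      rw [hR]
      simp only [map_nsmul, smul_add, smul_sub]
      congr 1
      · congr 1
        rw [← natCast_zsmul, ← natCast_zsmul, smul_comm]
      · rw [← natCast_zsmul, ← natCast_zsmul, smul_comm]
    rw [e, h5]
    simp
  have h2R : (2 : ℤ) • R = 0 := by
    apply hi₀
    · rw [← natCast_zsmul, smul_comm, natCast_zsmul, h5R, smul_zero]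
    · rw [map_zsmul, hR, map_add, map_sub, map_zsmul, map_zsmul, hs₀, hs₀]
      exact h₀ _
  have hR0 : R = 0 := by
    have : R = (5 : ℕ) • R - (2 : ℤ) • ((2 : ℤ) • R) := by
      rw [← natCast_zsmul, smul_smul, ← sub_smul]
      norm_num
    rw [this, h5R, h2R]
    simp
  have hQ : φ₁ (φ₁ (s₁ P)) - a₀ • φ₁ (s₁ P) + l • s₁ P = 0 := by
    have := congrArg s₁ hR0
    rwa [hR, map_add, map_sub, map_zsmul, map_zsmul, hs₁, hs₁, map_zero] at this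
  set T := φ₁ (s₁ P) with hT
  have hT5 : (5 : ℤ) • T = 0 := by
    have : (5 : ℕ) • T = 0 := by
      rw [hT, ← map_nsmul, ← map_nsmul, h5, map_zero, map_zero]
    rw [← this, ← natCast_zsmul]
    rfl
  have hT0 : T ≠ 0 := by
    intro h
    rw [hT, ← hs₁] at h
    have h1 := hi₁ (σ P) (by rw [← map_nsmul, h5, map_zero]) h
    exact hP (hσ (h1.trans (map_zero σ).symm))
  have hdiff : (2 * (a₁ - a₀)) • T = 0 := by
    have e1 := h₁ (s₁ P)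
    have e2 : (2 * (a₁ - a₀)) • T = (2 : ℤ) • (φ₁ (φ₁ (s₁ P)) - a₀ • φ₁ (s₁ P) + l • s₁ P)
        - (2 : ℤ) • (φ₁ (φ₁ (s₁ P)) - a₁ • φ₁ (s₁ P) + l • s₁ P) := by
      rw [← smul_sub, mul_smul, sub_smul]
      congr 1
      abel
    rw [e2, e1, hQ]
    simp
  by_contra hnd
  have hcop : IsCoprime (2 * (a₁ - a₀)) (5 : ℤ) := by
    have h5p : Prime (5 : ℤ) := by
      rw [Int.prime_iff_natAbs_prime]; norm_num
    rw [isCoprime_comm]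
    apply (Prime.coprime_iff_not_dvd h5p).2
    intro h
    rcases h5p.dvd_or_dvd h with h | h
    · norm_num at h
    · exact hnd h
  obtain ⟨x, y, hxy⟩ := hcop
  apply hT0
  have : T = (x * (2 * (a₁ - a₀)) + y * 5) • T := by rw [hxy, one_smul]
  rw [this, add_smul, mul_smul x, mul_smul y, hdiff, hT5]
  simp

end Fermat.Agent.S52
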