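import Fermat.Agent.S52.Defs

/-!
# S52: the small polynomial identities between the icosahedral forms (all by `ring`)
-/

set_option autoImplicit false

namespace Fermat.Agent.S52

variable {R : Type*} [CommRing R]

theorem syzygy (u v : R) : c4form u v ^ 3 - c6form u v ^ 2 = 1728 * Dform u v ^ 5 := by
  simp only [c4form, c6form, Dform]; ring

theorem euler (u v : R) : u * DformU u v + v * DformV u v = 12 * Dform u v := by
  simp only [DformU, DformV, Dform]; ring

theorem eqP (u v : R) :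
    yP u v ^ 2 = xP u v ^ 3 + (-27 * c4form u v) * xP u v + (-54 * c6form u v) := by
  simp only [c4form, c6form, xP, yP]; ring

theorem eqQ (u v : R) :
    yQ u v ^ 2 = xQ u v ^ 3 + (-27 * c4form u v) * xQ u v + (-54 * c6form u v) := by
  simp only [c4form, c6form, xQ, yQ]; ring

theorem slP_spec (u v : R) : slP u v * (2 * yP u v) = 3 * xP u v ^ 2 + (-27 * c4form u v) := by
  simp only [c4form, slP, xP, yP]; ring

theorem slQ_spec (u v : R) : slQ u v * (2 * yQ u v) = 3 * xQ u v ^ 2 + (-27 * c4form u v) := by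
  simp only [c4form, slQ, xQ, yQ]; ring

theorem xQ_spec (u v : R) : xQ u v = slP u v ^ 2 - 2 * xP u v := by
  simp only [slP, xQ, xP]; ring

theorem yQ_spec (u v : R) : yQ u v = -yP u v - slP u v * (xQ u v - xP u v) := by
  simp only [slP, xQ, xP, yP, yQ]; ring

theorem xP_spec (u v : R) : xP u v = slQ u v ^ 2 - 2 * xQ u v := by
  simp only [slQ, xQ, xP]; ring

theorem yP_spec (u v : R) : -yP u v = -yQ u v - slQ u v * (xP u v - xQ u v) := by
  simp only [slQ, xQ, xP, yP, yQ]; ring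

theorem yP_mul (u v : R) :
    yP u v * (u * (v ^ 8 - 4 * u * v ^ 7 + 7 * u ^ 2 * v ^ 6 - 7 * u ^ 3 * v ^ 5 + 7 * u ^ 5 * v ^ 3
      - 3 * u ^ 6 * v ^ 2 - u ^ 7 * v + u ^ 8)) = 108 * Dform u v ^ 2 := by
  simp only [yP, Dform]; ring

theorem yQ_mul (u v : R) :
    yQ u v * (v * (v ^ 8 + u * v ^ 7 - 3 * u ^ 2 * v ^ 6 - 7 * u ^ 3 * v ^ 5 + 7 * u ^ 5 * v ^ 3
      + 7 * u ^ 6 * v ^ 2 + 4 * u ^ 7 * v + u ^ 8)) = 108 * Dform u v ^ 2 := by
  simp only [yQ, Dform]; ring

end Fermat.Agent.S52
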