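import Fermat.Agent.S52.Five
import Fermat.Agent.S52.Expand.C6

/-!
# S52, chapter FAM: the generic point of order 5 on the family over `k(T)`
-/

set_option autoImplicit false

namespace Fermat.Agent.S52

open WeierstrassCurve Polynomial

theorem c4fam_zero {R : Type*} [CommRing R] (a b d : R) : c4fam a b d 0 = a := by
  simp [c4fam]

theorem c6fam_zero {R : Type*} [CommRing R] (a b d : R) : c6fam a b d 0 = b := by
  simp [c6fam]

theorem Dfam_zero {R : Type*} [CommRing R] (a b d : R) : Dfam a b d 0 = 1 := by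
  simp [Dfam]

variable {k : Type*} [Field k]

theorem eval_c4fam (a b d c : k) :
    (c4fam (C a) (C b) (C d) X : k[X]).eval c = c4fam a b d c := by
  have := Expand.c4fam_map (evalRingHom c) (C a) (C b) (C d) X
  simpa only [coe_evalRingHom, eval_C, eval_X] using this

theorem eval_c6fam (a b d c : k) :
    (c6fam (C a) (C b) (C d) X : k[X]).eval c = c6fam a b d c := by
  have := Expand.c6fam_map (evalRingHom c) (C a) (C b) (C d) X
  simpa only [coe_evalRingHom, eval_C, eval_X] using this

theorem eval_Dfam (a b d c : k) :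
    (Dfam (C a) (C b) (C d) X : k[X]).eval c = Dfam a b d c := by
  have := Expand.Dfam_map (evalRingHom c) (C a) (C b) (C d) X
  simpa only [coe_evalRingHom, eval_C, eval_X] using this

theorem generic_point [DecidableEq (RatFunc k)] (h6 : (6 : k) ≠ 0) (a4 a6 d u0 v0 : k)
    (h4 : c4form u0 v0 = a4) (h6' : c6form u0 v0 = a6) (hd : Dform u0 v0 ^ 5 = d) (hd0 : d ≠ 0) :
    ∃ P : SPt (algebraMap k[X] (RatFunc k) (-27 * c4fam (C a4) (C a6) (C d) X))
        (algebraMap k[X] (RatFunc k) (-54 * c6fam (C a4) (C a6) (C d) X)),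
      P ≠ 0 ∧ (5 : ℕ) • P = 0 := by
  set j := algebraMap k[X] (RatFunc k) with hj
  set U : k[X] := C u0 - X * DformV (C u0) (C v0) with hU
  set V : k[X] := C v0 + X * DformU (C u0) (C v0) with hV
  have e4 : c4form (C u0) (C v0) = (C a4 : k[X]) := by
    rw [← Expand.c4form_map (C : k →+* k[X]), h4]
  have e6 : c6form (C u0) (C v0) = (C a6 : k[X]) := by
    rw [← Expand.c6form_map (C : k →+* k[X]), h6']
  have eD : Dform (C u0) (C v0) ^ 5 = (C d : k[X]) := by
    rw [← Expand.Dform_map (C : k →+* k[X]), ← map_pow, hd]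
  have f4 : c4form U V = c4fam (C a4) (C a6) (C d) X := by
    rw [hU, hV, c4form_shift, e4, e6, eD]
  have f6 : c6form U V = c6fam (C a4) (C a6) (C d) X := by
    rw [hU, hV, c6form_shift, e4, e6, eD]
  have fD : Dform U V = Dform (C u0) (C v0) * Dfam (C a4) (C a6) (C d) X := by
    rw [hU, hV, Dform_shift, e4, e6, eD]
  have hD0 : Dform U V ≠ 0 := by
    intro h0
    have h1 := congrArg (eval 0) h0
    rw [fD, eval_mul, eval_Dfam, Dfam_zero, mul_one, eval_zero,
      ← Expand.Dform_map (C : k →+* k[X]), eval_C] at h1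
    apply hd0
    rw [← hd, h1]
    ring
  have h6K : (6 : RatFunc k) ≠ 0 := by
    have : (6 : RatFunc k) = algebraMap k (RatFunc k) 6 := by rw [map_ofNat]
    rw [this]
    exact (_root_.map_ne_zero _).2 h6
  obtain ⟨h, h5⟩ := five_torsion (F := RatFunc k) h6K (u := j U) (v := j V)
    (A := j (-27 * c4fam (C a4) (C a6) (C d) X)) (B := j (-54 * c6fam (C a4) (C a6) (C d) X))
    (by
      rw [← Expand.Dform_map j]
      exact (map_ne_zero_iff j (IsFractionRing.injective k[X] (RatFunc k))).2 hD0)
    (by rw [← Expand.c4form_map j, f4, map_mul, map_neg, map_ofNat])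
    (by rw [← Expand.c6form_map j, f6, map_mul, map_neg, map_ofNat])
  refine ⟨Affine.Point.some _ _ h, ?_, h5⟩
  intro h0
  cases h0

end Fermat.Agent.S52
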