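import Fermat.Agent.S52.Forms

/-!
# S52, chapter FAM, task Untwist

Over an algebraically closed field in which `30` is invertible every pair `(c₄, c₆)` with
`c₄³ - c₆² = 1728 Δ`, `Δ ≠ 0`, is of the form `(c4form u v, c6form u v)`; the forms `c4form`, `Dform`
have no common zero.
-/

set_option autoImplicit false

namespace Fermat.Agent.S52

open Polynomial

namespace Untwist

section ring

variable {R : Type*} [CommRing R]

/-- `c4form` in the variables `X = u⁵`, `Y = v⁵`. -/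
def q4 (X Y : R) : R := X ^ 4 + Y ^ 4 - 228 * (X ^ 3 * Y - X * Y ^ 3) + 494 * X ^ 2 * Y ^ 2
/-- `c6form` in the variables `X = u⁵`, `Y = v⁵`. -/
def q6 (X Y : R) : R :=
  -(X ^ 6 + Y ^ 6 + 522 * (X ^ 5 * Y - X * Y ^ 5) - 10005 * (X ^ 4 * Y ^ 2 + X ^ 2 * Y ^ 4))
/-- `Dform ^ 5` in the variables `X = u⁵`, `Y = v⁵`. -/
def qD (X Y : R) : R := X * Y * (Y ^ 2 - 11 * X * Y - X ^ 2) ^ 5

theorem c4form_eq (u v : R) : c4form u v = q4 (u ^ 5) (v ^ 5) := by
  unfold c4form q4; ring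

theorem c6form_eq (u v : R) : c6form u v = q6 (u ^ 5) (v ^ 5) := by
  unfold c6form q6; ring

theorem Dform_pow_eq (u v : R) : Dform u v ^ 5 = qD (u ^ 5) (v ^ 5) := by
  unfold Dform qD; ring

theorem q_syzygy (X Y : R) : q4 X Y ^ 3 - q6 X Y ^ 2 = 1728 * qD X Y := by
  unfold q4 q6 qD; ring

theorem q4_smul (r ν : R) : q4 (r * ν) ν = ν ^ 4 * q4 r 1 := by
  unfold q4; ring

theorem q6_smul (r ν : R) : q6 (r * ν) ν = ν ^ 6 * q6 r 1 := by
  unfold q6; ring

theorem q4_red (X Y : R) :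
    q4 X Y = (Y ^ 2 + 239 * X * Y + 3124 * X ^ 2) * (Y ^ 2 - 11 * X * Y - X ^ 2)
      + 3125 * X ^ 3 * (X + 11 * Y) := by
  unfold q4; ring

end ring

section field

variable {k : Type*} [Field k]

theorem two_ne (h30 : (30 : k) ≠ 0) : (2 : k) ≠ 0 := by
  intro h; apply h30
  have : (30 : k) = 2 * 15 := by norm_num
  rw [this, h, zero_mul]

theorem three_ne (h30 : (30 : k) ≠ 0) : (3 : k) ≠ 0 := by
  intro h; apply h30
  have : (30 : k) = 3 * 10 := by norm_num
  rw [this, h, zero_mul]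

theorem five_ne (h30 : (30 : k) ≠ 0) : (5 : k) ≠ 0 := by
  intro h; apply h30
  have : (30 : k) = 5 * 6 := by norm_num
  rw [this, h, zero_mul]

theorem c1728_ne (h30 : (30 : k) ≠ 0) : (1728 : k) ≠ 0 := by
  have : (1728 : k) = 2 ^ 6 * 3 ^ 3 := by norm_num
  rw [this]
  exact mul_ne_zero (pow_ne_zero _ (two_ne h30)) (pow_ne_zero _ (three_ne h30))

theorem c3125_ne (h30 : (30 : k) ≠ 0) : (3125 : k) ≠ 0 := by
  have : (3125 : k) = 5 ^ 5 := by norm_num
  rw [this]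
  exact pow_ne_zero _ (five_ne h30)

/-- `q4` and `qD` have no common zero. -/
theorem q_no_common_zero (h30 : (30 : k) ≠ 0) {X Y : k} (h4 : q4 X Y = 0) (hD : qD X Y = 0) :
    X = 0 ∧ Y = 0 := by
  unfold qD at hD
  rcases mul_eq_zero.1 hD with h | h
  · rcases mul_eq_zero.1 h with h | h
    · subst h
      refine ⟨rfl, ?_⟩
      have : Y ^ 4 = 0 := by
        have := h4; unfold q4 at this; linear_combination this
      exact pow_eq_zero_iff (by norm_num) |>.1 this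
    · subst h
      refine ⟨?_, rfl⟩
      have : X ^ 4 = 0 := by
        have := h4; unfold q4 at this; linear_combination this
      exact pow_eq_zero_iff (by norm_num) |>.1 this
  · have hq : Y ^ 2 - 11 * X * Y - X ^ 2 = 0 := pow_eq_zero_iff (by norm_num) |>.1 h
    rw [q4_red, hq, mul_zero, zero_add] at h4
    have hX : X = 0 := by
      rcases mul_eq_zero.1 h4 with h5 | h5
      · rcases mul_eq_zero.1 h5 with h6 | h6
        · exact absurd h6 (c3125_ne h30)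
        · exact pow_eq_zero_iff (by norm_num) |>.1 h6
      · have hX' : X = -11 * Y := by linear_combination h5
        have hY : Y ^ 2 = 0 := by
          rw [hX'] at hq; linear_combination hq
        have hY0 : Y = 0 := pow_eq_zero_iff (by norm_num) |>.1 hY
        rw [hX', hY0, mul_zero]
    refine ⟨hX, ?_⟩
    rw [hX] at hq
    have : Y ^ 2 = 0 := by linear_combination hq
    exact pow_eq_zero_iff (by norm_num) |>.1 this

/-- the polynomial whose roots are the ratios `X / Y`. -/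
noncomputable def ratioPoly (c₄ Δ : k) : k[X] :=
  C Δ * (X ^ 4 + 1 - 228 * (X ^ 3 - X) + 494 * X ^ 2) ^ 3
    - C (c₄ ^ 3) * (X * (1 - 11 * X - X ^ 2) ^ 5)

theorem eval_ratioPoly (c₄ Δ r : k) :
    (ratioPoly c₄ Δ).eval r = Δ * q4 r 1 ^ 3 - c₄ ^ 3 * qD r 1 := by
  simp only [ratioPoly, q4, qD, eval_sub, eval_mul, eval_C, eval_pow, eval_add, eval_X, eval_one,
    eval_ofNat]
  ring

theorem natDegree_ratioPoly (c₄ : k) {Δ : k} (hΔ : Δ ≠ 0) : (ratioPoly c₄ Δ).natDegree = 12 := by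
  unfold ratioPoly
  compute_degree!

/-- existence in the variables `X, Y`. -/
theorem exists_XY [IsAlgClosed k] (h30 : (30 : k) ≠ 0) (c₄ c₆ Δ : k)
    (hrel : c₄ ^ 3 - c₆ ^ 2 = 1728 * Δ) (hΔ : Δ ≠ 0) : ∃ X Y : k, q4 X Y = c₄ ∧ q6 X Y = c₆ := by
  have h1728 := c1728_ne h30
  obtain ⟨r, hr⟩ := IsAlgClosed.exists_root (ratioPoly c₄ Δ) (by
    intro h
    have := natDegree_eq_of_degree_eq_some h
    rw [natDegree_ratioPoly c₄ hΔ] at this
    norm_num at this)
  rw [IsRoot.def, eval_ratioPoly] at hr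
  have hD : qD r 1 ≠ 0 := by
    intro hD
    rw [hD, mul_zero, sub_zero] at hr
    have h4 : q4 r 1 = 0 := by
      rcases mul_eq_zero.1 hr with h | h
      · exact absurd h hΔ
      · exact pow_eq_zero_iff (by norm_num) |>.1 h
    exact one_ne_zero (q_no_common_zero h30 h4 hD).2
  have hsyz := q_syzygy r (1 : k)
  -- `c₄³ D = Δ C4³`, `c₆² D = Δ C6²`
  have e4 : c₄ ^ 3 * qD r 1 = Δ * q4 r 1 ^ 3 := by linear_combination -hr
  have e6 : c₆ ^ 2 * qD r 1 = Δ * q6 r 1 ^ 2 := by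
    linear_combination -hr - qD r 1 * hrel + Δ * hsyz
  -- it suffices to find `μ`
  suffices hμ : ∃ μ : k, μ ^ 2 * q4 r 1 = c₄ ∧ μ ^ 3 * q6 r 1 = c₆ by
    obtain ⟨μ, h4, h6⟩ := hμ
    obtain ⟨ν, hν⟩ := IsAlgClosed.exists_pow_nat_eq μ (n := 2) (by norm_num)
    refine ⟨r * ν, ν, ?_, ?_⟩
    · rw [q4_smul, ← h4, ← hν]; ring
    · rw [q6_smul, ← h6, ← hν]; ring
  by_cases hc4 : c₄ = 0
  · -- then `C4 = 0`
    have h4 : q4 r 1 = 0 := by
      rw [hc4] at e4
      have : Δ * q4 r 1 ^ 3 = 0 := by rw [← e4]; ring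
      rcases mul_eq_zero.1 this with h | h
      · exact absurd h hΔ
      · exact pow_eq_zero_iff (by norm_num) |>.1 h
    have h6 : q6 r 1 ≠ 0 := by
      intro h6
      rw [h4, h6] at hsyz
      have : (1728 : k) * qD r 1 = 0 := by rw [← hsyz]; ring
      exact (mul_ne_zero h1728 hD) this
    obtain ⟨μ, hμ⟩ := IsAlgClosed.exists_pow_nat_eq (c₆ / q6 r 1) (n := 3) (by norm_num)
    refine ⟨μ, by rw [h4, hc4, mul_zero], ?_⟩
    rw [hμ]; field_simp
  by_cases hc6 : c₆ = 0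
  · have h6 : q6 r 1 = 0 := by
      rw [hc6] at e6
      have : Δ * q6 r 1 ^ 2 = 0 := by rw [← e6]; ring
      rcases mul_eq_zero.1 this with h | h
      · exact absurd h hΔ
      · exact pow_eq_zero_iff (by norm_num) |>.1 h
    have h4 : q4 r 1 ≠ 0 := by
      intro h4
      rw [h4, h6] at hsyz
      have : (1728 : k) * qD r 1 = 0 := by rw [← hsyz]; ring
      exact (mul_ne_zero h1728 hD) this
    obtain ⟨μ, hμ⟩ := IsAlgClosed.exists_pow_nat_eq (c₄ / q4 r 1) (n := 2) (by norm_num)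
    refine ⟨μ, ?_, by rw [h6, hc6, mul_zero]⟩
    rw [hμ]; field_simp
  · have h4 : q4 r 1 ≠ 0 := by
      intro h4
      rw [h4] at e4
      have : c₄ ^ 3 * qD r 1 = 0 := by rw [e4]; ring
      exact (mul_ne_zero (pow_ne_zero _ hc4) hD) this
    have h6 : q6 r 1 ≠ 0 := by
      intro h6
      rw [h6] at e6
      have : c₆ ^ 2 * qD r 1 = 0 := by rw [e6]; ring
      exact (mul_ne_zero (pow_ne_zero _ hc6) hD) this
    -- `(c₄ / C4)³ = (c₆ / C6)²`
    have key : c₄ ^ 3 * q6 r 1 ^ 2 = c₆ ^ 2 * q4 r 1 ^ 3 := by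
      apply mul_left_cancel₀ (mul_ne_zero hD hΔ)
      linear_combination Δ * q6 r 1 ^ 2 * e4 - Δ * q4 r 1 ^ 3 * e6
    refine ⟨c₆ * q4 r 1 / (q6 r 1 * c₄), ?_, ?_⟩
    · field_simp
      linear_combination -key
    · field_simp
      linear_combination -key

end field

end Untwist

/-- **Untwisting**. -/
theorem exists_uv {k : Type*} [Field k] [IsAlgClosed k] (h30 : (30 : k) ≠ 0) (c₄ c₆ Δ : k)
    (hrel : c₄ ^ 3 - c₆ ^ 2 = 1728 * Δ) (hΔ : Δ ≠ 0) :
    ∃ u v : k, c4form u v = c₄ ∧ c6form u v = c₆ ∧ Dform u v ^ 5 = Δ := by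
  obtain ⟨X, Y, h4, h6⟩ := Untwist.exists_XY h30 c₄ c₆ Δ hrel hΔ
  obtain ⟨u, hu⟩ := IsAlgClosed.exists_pow_nat_eq X (n := 5) (by norm_num)
  obtain ⟨v, hv⟩ := IsAlgClosed.exists_pow_nat_eq Y (n := 5) (by norm_num)
  have e4 : c4form u v = c₄ := by rw [Untwist.c4form_eq, hu, hv, h4]
  have e6 : c6form u v = c₆ := by rw [Untwist.c6form_eq, hu, hv, h6]
  refine ⟨u, v, e4, e6, ?_⟩
  apply mul_left_cancel₀ (Untwist.c1728_ne h30)
  rw [← syzygy, e4, e6, hrel]

/-- `c4form` and `Dform` have no common zero. -/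
theorem forms_no_common_zero {k : Type*} [Field k] (h30 : (30 : k) ≠ 0) {u v : k}
    (h4 : c4form u v = 0) (hD : Dform u v = 0) : u = 0 ∧ v = 0 := by
  have h := Untwist.q_no_common_zero h30 (X := u ^ 5) (Y := v ^ 5)
    (by rw [← Untwist.c4form_eq, h4]) (by rw [← Untwist.Dform_pow_eq, hD]; ring)
  exact ⟨pow_eq_zero_iff (by norm_num) |>.1 h.1, pow_eq_zero_iff (by norm_num) |>.1 h.2⟩

end Fermat.Agent.S52
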