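import Fermat.Agent.S52.CH
import Fermat.Agent.S52.CongAbs
import Fermat.Agent.S52.CongGen
import Fermat.Agent.S52.Spec.Sigma
import Fermat.Agent.S52.Untwist

/-!
# S52, chapter FAM (final statement): the members of the family have the same number of points
modulo 5 over `𝔽_ℓ`, `ℓ ≥ 7`.

`k = 𝔽̄_ℓ`, `K = k(T)`.  The family `E_T` over `K` has a point `P ≠ 0` of order 5 (`generic_point`).
`σ` = Frobenius on the coefficients of `K`; the specialisations at `T = 0` and `T = t` are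
homomorphisms, injective on 5-torsion, and intertwine `σ` with the Frobenius endomorphisms of the
fibres; conclude with Cayley-Hamilton on both fibres (`five_dvd_of_two_fibres`).
-/

set_option autoImplicit false

namespace Fermat.Agent.S52

open WeierstrassCurve Polynomial

theorem cong_natCast_ne_zero (ℓ : ℕ) (F : Type*) [Field F] [CharP F ℓ] {n : ℕ} (h0 : 0 < n)
    (hn : n < ℓ) : (n : F) ≠ 0 := by
  rw [Ne, CharP.cast_eq_zero_iff F ℓ]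
  intro h
  exact absurd (Nat.le_of_dvd h0 h) (by omega)

theorem cong_disc_ne_zero {F : Type*} [Field F] (h2 : (2 : F) ≠ 0) (h3 : (3 : F) ≠ 0)
    (c4 c6 D : F) (hrel : c4 ^ 3 - c6 ^ 2 = 1728 * D) (hD : D ≠ 0) :
    4 * (-27 * c4) ^ 3 + 27 * (-54 * c6) ^ 2 ≠ 0 := by
  have e : 4 * (-27 * c4) ^ 3 + 27 * (-54 * c6) ^ 2 = -(2 ^ 8 * 3 ^ 12 * D) := by
    linear_combination (-78732) * hrel
  rw [e]
  exact neg_ne_zero.2 (mul_ne_zero (mul_ne_zero (pow_ne_zero _ h2) (pow_ne_zero _ h3)) hD)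

theorem card_congr (ℓ : ℕ) [Fact ℓ.Prime] (hℓ : 7 ≤ ℓ) (c₄ c₆ Δ t : ZMod ℓ)
    (hrel : c₄ ^ 3 - c₆ ^ 2 = 1728 * Δ) (hΔ : Δ ≠ 0) (hD : Dfam c₄ c₆ Δ t ≠ 0) :
    (5 : ℤ) ∣ (Nat.card (SPt (-27 * c4fam c₄ c₆ Δ t) (-54 * c6fam c₄ c₆ Δ t)) : ℤ)
      - (Nat.card (SPt (-27 * c₄) (-54 * c₆)) : ℤ) := by
  let _ : DecidableEq (RatFunc (Fbar ℓ)) := Classical.decEq _
  set ι : ZMod ℓ →+* Fbar ℓ := algebraMap (ZMod ℓ) (Fbar ℓ) with hι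
  -- small numbers
  have k2 : (2 : Fbar ℓ) ≠ 0 := by
    exact_mod_cast cong_natCast_ne_zero ℓ (Fbar ℓ) (n := 2) (by norm_num) (by omega)
  have k3 : (3 : Fbar ℓ) ≠ 0 := by
    exact_mod_cast cong_natCast_ne_zero ℓ (Fbar ℓ) (n := 3) (by norm_num) (by omega)
  have k5 : ((5 : ℕ) : Fbar ℓ) ≠ 0 :=
    cong_natCast_ne_zero ℓ (Fbar ℓ) (n := 5) (by norm_num) (by omega)
  have k6 : (6 : Fbar ℓ) ≠ 0 := by
    exact_mod_cast cong_natCast_ne_zero ℓ (Fbar ℓ) (n := 6) (by norm_num) (by omega)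
  have k30 : (30 : Fbar ℓ) ≠ 0 := by
    have : (30 : Fbar ℓ) = 6 * ((5 : ℕ) : Fbar ℓ) := by norm_num
    rw [this]
    exact mul_ne_zero k6 k5
  have z2 : (2 : ZMod ℓ) ≠ 0 := by
    exact_mod_cast cong_natCast_ne_zero ℓ (ZMod ℓ) (n := 2) (by norm_num) (by omega)
  have z3 : (3 : ZMod ℓ) ≠ 0 := by
    exact_mod_cast cong_natCast_ne_zero ℓ (ZMod ℓ) (n := 3) (by norm_num) (by omega)
  -- discriminants
  have d0 : 4 * (-27 * c₄) ^ 3 + 27 * (-54 * c₆) ^ 2 ≠ 0 :=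
    cong_disc_ne_zero z2 z3 c₄ c₆ Δ hrel hΔ
  have hrel1 : c4fam c₄ c₆ Δ t ^ 3 - c6fam c₄ c₆ Δ t ^ 2 = 1728 * (Δ * Dfam c₄ c₆ Δ t ^ 5) := by
    have := Rel.fam_relation_gen c₄ c₆ Δ t
    linear_combination this + Rel.relCof c₄ c₆ Δ t * hrel
  have d1 : 4 * (-27 * c4fam c₄ c₆ Δ t) ^ 3 + 27 * (-54 * c6fam c₄ c₆ Δ t) ^ 2 ≠ 0 :=
    cong_disc_ne_zero z2 z3 _ _ _ hrel1 (mul_ne_zero hΔ (pow_ne_zero _ hD))
  have hdisc : ∀ a b : ZMod ℓ, 4 * a ^ 3 + 27 * b ^ 2 ≠ 0 → (shortW (ι a) (ι b)).Δ ≠ 0 := by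
    intro a b hab
    rw [shortW_Δ]
    have e : (-16 : Fbar ℓ) * (4 * ι a ^ 3 + 27 * ι b ^ 2) = -(2 ^ 4 * ι (4 * a ^ 3 + 27 * b ^ 2)) := by
      simp only [map_add, map_mul, map_pow, map_ofNat]
      ring
    rw [e]
    exact neg_ne_zero.2 (mul_ne_zero (pow_ne_zero _ k2) ((_root_.map_ne_zero ι).2 hab))
  -- untwisting
  obtain ⟨u0, v0, h4, h6, hd⟩ := exists_uv k30 (ι c₄) (ι c₆) (ι Δ)
    (by rw [← map_pow, ← map_pow, ← map_sub, hrel, map_mul, map_ofNat]) ((_root_.map_ne_zero ι).2 hΔ)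
  obtain ⟨𝒜, h𝒜⟩ : ∃ 𝒜 : (Fbar ℓ)[X], 𝒜 = -27 * c4fam (C (ι c₄)) (C (ι c₆)) (C (ι Δ)) X :=
    ⟨_, rfl⟩
  obtain ⟨ℬ, hℬ⟩ : ∃ ℬ : (Fbar ℓ)[X], ℬ = -54 * c6fam (C (ι c₄)) (C (ι c₆)) (C (ι Δ)) X :=
    ⟨_, rfl⟩
  obtain ⟨P, hP0, hP5⟩ : ∃ P : SPt (algebraMap (Fbar ℓ)[X] (RatFunc (Fbar ℓ)) 𝒜)
      (algebraMap (Fbar ℓ)[X] (RatFunc (Fbar ℓ)) ℬ), P ≠ 0 ∧ (5 : ℕ) • P = 0 := by
    rw [h𝒜, hℬ]
    exact generic_point k6 (ι c₄) (ι c₆) (ι Δ) u0 v0 h4 h6 hd ((_root_.map_ne_zero ι).2 hΔ)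
  have ha0 : 𝒜.eval 0 = ι (-27 * c₄) := by
    rw [h𝒜, eval_mul, eval_c4fam, c4fam_zero, eval_neg, eval_ofNat, map_mul, map_neg, map_ofNat]
  have hb0 : ℬ.eval 0 = ι (-54 * c₆) := by
    rw [hℬ, eval_mul, eval_c6fam, c6fam_zero, eval_neg, eval_ofNat, map_mul, map_neg, map_ofNat]
  have ha1 : 𝒜.eval (ι t) = ι (-27 * c4fam c₄ c₆ Δ t) := by
    rw [h𝒜, eval_mul, eval_c4fam, eval_neg, eval_ofNat, map_mul, map_neg, map_ofNat,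
      Expand.c4fam_map]
  have hb1 : ℬ.eval (ι t) = ι (-54 * c6fam c₄ c₆ Δ t) := by
    rw [hℬ, eval_mul, eval_c6fam, eval_neg, eval_ofNat, map_mul, map_neg, map_ofNat,
      Expand.c6fam_map]
  -- the coefficient Frobenius
  have hfix : ∀ a : ZMod ℓ, frobenius (Fbar ℓ) ℓ (ι a) = ι a := frobenius_algebraMap ℓ
  have hσA : Spec.coeffHom (frobenius (Fbar ℓ) ℓ) (algebraMap _ (RatFunc (Fbar ℓ)) 𝒜)
      = algebraMap _ (RatFunc (Fbar ℓ)) 𝒜 := by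
    rw [Spec.coeffHom_algebraMap]
    congr 1
    rw [h𝒜, ← coe_mapRingHom, map_mul, map_neg, map_ofNat, Expand.c4fam_map]
    simp only [coe_mapRingHom, map_C, map_X, hfix]
  have hσB : Spec.coeffHom (frobenius (Fbar ℓ) ℓ) (algebraMap _ (RatFunc (Fbar ℓ)) ℬ)
      = algebraMap _ (RatFunc (Fbar ℓ)) ℬ := by
    rw [Spec.coeffHom_algebraMap]
    congr 1
    rw [hℬ, ← coe_mapRingHom, map_mul, map_neg, map_ofNat, Expand.c6fam_map]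
    simp only [coe_mapRingHom, map_C, map_X, hfix]
  have key := five_dvd_of_two_fibres
    (shortMap (Spec.coeffHom (frobenius (Fbar ℓ) ℓ)) hσA hσB)
    (frobS ℓ (-27 * c₄) (-54 * c₆))
    (frobS ℓ (-27 * c4fam c₄ c₆ Δ t) (-54 * c6fam c₄ c₆ Δ t))
    (Spec.spec 𝒜 ℬ 0 ha0 hb0 (hdisc _ _ d0))
    (Spec.spec 𝒜 ℬ (ι t) ha1 hb1 (hdisc _ _ d1))
    (fun Q => Spec.spec_coeffHom ha0 hb0 (hdisc _ _ d0) (frobenius (Fbar ℓ) ℓ) (map_zero _)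
      hσA hσB (hfix _) (hfix _) Q)
    (fun Q => Spec.spec_coeffHom ha1 hb1 (hdisc _ _ d1) (frobenius (Fbar ℓ) ℓ) (hfix _)
      hσA hσB (hfix _) (hfix _) Q)
    (fun Q h5 h0 => Spec.eq_zero_of_spec_eq_zero ha0 hb0 (hdisc _ _ d0) k5 Q h5 h0)
    (fun Q h5 h0 => Spec.eq_zero_of_spec_eq_zero ha1 hb1 (hdisc _ _ d1) k5 Q h5 h0)
    (shortMap_injective _ _ _)
    ((ℓ : ℤ) + 1 - (Nat.card (SPt (-27 * c₄) (-54 * c₆)) : ℤ))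
    ((ℓ : ℤ) + 1 - (Nat.card (SPt (-27 * c4fam c₄ c₆ Δ t) (-54 * c6fam c₄ c₆ Δ t)) : ℤ))
    (ℓ : ℤ)
    (fun Q => frobenius_CH_two ℓ (by omega) _ _ d0 Q)
    (fun Q => frobenius_CH_two ℓ (by omega) _ _ d1 Q)
    P hP0 hP5
  obtain ⟨m, hm⟩ := key
  exact ⟨-m, by linear_combination -hm⟩

end Fermat.Agent.S52
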