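import Fermat.Agent.S52.Short

/-!
# S52, task COUNT: a Weierstrass curve over `𝔽_ℓ`, `ℓ ≥ 5`, has as many points as its short model
`(x, y) ↦ (36 x + 3 b₂, 108 (2 y + a₁ x + a₃))`.
-/

set_option autoImplicit false

namespace Fermat.Agent.S52

open WeierstrassCurve

section

variable {F : Type*} [Field F] (W : WeierstrassCurve F)

theorem count_nonsingular (h2 : (2 : F) ≠ 0) (h3 : (3 : F) ≠ 0) (x y : F) :
    W.toAffine.Nonsingular x y ↔
      (shortW (-27 * W.c₄) (-54 * W.c₆)).toAffine.Nonsingular (36 * x + 3 * W.b₂)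
        (108 * (2 * y + W.a₁ * x + W.a₃)) := by
  rw [nonsingular_short, Affine.nonsingular_iff', Affine.equation_iff]
  have e1 : (108 * (2 * y + W.a₁ * x + W.a₃)) ^ 2 - ((36 * x + 3 * W.b₂) ^ 3 +
      (-27 * W.c₄) * (36 * x + 3 * W.b₂) + (-54 * W.c₆)) =
      2 ^ 6 * 3 ^ 6 * (y ^ 2 + W.a₁ * x * y + W.a₃ * y -
        (x ^ 3 + W.a₂ * x ^ 2 + W.a₄ * x + W.a₆)) := by
    simp only [WeierstrassCurve.c₄, WeierstrassCurve.c₆, WeierstrassCurve.b₂, WeierstrassCurve.b₄,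
      WeierstrassCurve.b₆]
    ring
  have e2 : 3 * (36 * x + 3 * W.b₂) ^ 2 + -27 * W.c₄ =
      2 ^ 3 * 3 ^ 4 * (-2 * (W.a₁ * y - (3 * x ^ 2 + 2 * W.a₂ * x + W.a₄)) +
        W.a₁ * (2 * y + W.a₁ * x + W.a₃)) := by
    simp only [WeierstrassCurve.c₄, WeierstrassCurve.b₂, WeierstrassCurve.b₄]
    ring
  have e3 : 2 * (108 * (2 * y + W.a₁ * x + W.a₃)) = 2 ^ 3 * 3 ^ 3 * (2 * y + W.a₁ * x + W.a₃) := by
    ring
  have c1 : (2 : F) ^ 6 * 3 ^ 6 ≠ 0 := mul_ne_zero (pow_ne_zero _ h2) (pow_ne_zero _ h3)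
  have c2 : (2 : F) ^ 3 * 3 ^ 4 ≠ 0 := mul_ne_zero (pow_ne_zero _ h2) (pow_ne_zero _ h3)
  have c3 : (2 : F) ^ 3 * 3 ^ 3 ≠ 0 := mul_ne_zero (pow_ne_zero _ h2) (pow_ne_zero _ h3)
  rw [e2, e3, ← sub_eq_zero (a := (108 * (2 * y + W.a₁ * x + W.a₃)) ^ 2), e1,
    mul_eq_zero, or_iff_right c1, sub_eq_zero, mul_ne_zero_iff_left c2, mul_ne_zero_iff_left c3]
  refine and_congr_right fun _ => ?_
  by_cases hη : 2 * y + W.a₁ * x + W.a₃ = 0
  · rw [hη, mul_zero, add_zero, mul_ne_zero_iff]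
    simp [h2]
  · simp [hη]

/-- the map to the short model. -/
def countMap (h2 : (2 : F) ≠ 0) (h3 : (3 : F) ≠ 0) :
    W.toAffine.Point → SPt (-27 * W.c₄) (-54 * W.c₆)
  | .zero => .zero
  | .some x y h => .some (36 * x + 3 * W.b₂) (108 * (2 * y + W.a₁ * x + W.a₃))
      ((count_nonsingular W h2 h3 x y).1 h)

theorem countMap_bijective (h2 : (2 : F) ≠ 0) (h3 : (3 : F) ≠ 0) :
    Function.Bijective (countMap W h2 h3) := by
  have c36 : (36 : F) ≠ 0 := by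
    have : (36 : F) = 2 ^ 2 * 3 ^ 2 := by norm_num
    rw [this]
    exact mul_ne_zero (pow_ne_zero _ h2) (pow_ne_zero _ h3)
  have c108 : (108 : F) ≠ 0 := by
    have : (108 : F) = 2 ^ 2 * 3 ^ 3 := by norm_num
    rw [this]
    exact mul_ne_zero (pow_ne_zero _ h2) (pow_ne_zero _ h3)
  constructor
  · rintro (_ | ⟨x, y, h⟩) (_ | ⟨x', y', h'⟩) hPQ
    · rfl
    · exact absurd hPQ (by intro h; cases h)
    · exact absurd hPQ (by intro h; cases h)
    · simp only [countMap, Affine.Point.some.injEq] at hPQ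
      obtain ⟨h1, h2'⟩ := hPQ
      have e1 : x = x' := mul_left_cancel₀ c36 (add_right_cancel h1)
      subst e1
      have e2 : y = y' := by
        have := mul_left_cancel₀ c108 h2'
        exact mul_left_cancel₀ h2 (add_right_cancel (add_right_cancel this))
      subst e2
      rfl
  · rintro (_ | ⟨X, Y, h⟩)
    · exact ⟨.zero, rfl⟩
    · have eX : 36 * ((X - 3 * W.b₂) / 36) + 3 * W.b₂ = X := by field_simp; ring
      have eY : 108 * (2 * ((Y / 108 - W.a₁ * ((X - 3 * W.b₂) / 36) - W.a₃) / 2) +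
          W.a₁ * ((X - 3 * W.b₂) / 36) + W.a₃) = Y := by field_simp; ring
      have h' : W.toAffine.Nonsingular ((X - 3 * W.b₂) / 36)
          ((Y / 108 - W.a₁ * ((X - 3 * W.b₂) / 36) - W.a₃) / 2) := by
        rw [count_nonsingular W h2 h3, eX, eY]
        exact h
      refine ⟨.some _ _ h', ?_⟩
      simp only [countMap, Affine.Point.some.injEq]
      exact ⟨eX, eY⟩

end

theorem card_short (ℓ : ℕ) [Fact ℓ.Prime] (hℓ : 5 ≤ ℓ) (W : WeierstrassCurve (ZMod ℓ)) :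
    Nat.card W.toAffine.Point = Nat.card (SPt (-27 * W.c₄) (-54 * W.c₆)) := by
  have h2 : (2 : ZMod ℓ) ≠ 0 := by
    intro h
    have h' : ((2 : ℕ) : ZMod ℓ) = 0 := by exact_mod_cast h
    rw [ZMod.natCast_eq_zero_iff] at h'
    exact absurd (Nat.le_of_dvd (by norm_num) h') (by omega)
  have h3 : (3 : ZMod ℓ) ≠ 0 := by
    intro h
    have h' : ((3 : ℕ) : ZMod ℓ) = 0 := by exact_mod_cast h
    rw [ZMod.natCast_eq_zero_iff] at h'
    exact absurd (Nat.le_of_dvd (by norm_num) h') (by omega)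
  exact Nat.card_congr (Equiv.ofBijective _ (countMap_bijective W h2 h3))

end Fermat.Agent.S52
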