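import Fermat.Agent.S52.Untwist
import Fermat.Agent.S52.Expand.C6

/-!
# S52, chapter FAM: `c4fam` and `Dfam` have no common zero (field level), by untwisting.
-/

set_option autoImplicit false

namespace Fermat.Agent.S52

/-- (F4) over an algebraically closed field with `30 ≠ 0` the polynomials `c4fam`, `Dfam` (in `t`) have no
common zero. -/
theorem c4fam_ne_zero_of_Dfam_eq_zero {k : Type*} [Field k] [IsAlgClosed k] (h30 : (30 : k) ≠ 0)
    (c₄ c₆ Δ t : k) (hrel : c₄ ^ 3 - c₆ ^ 2 = 1728 * Δ) (hΔ : Δ ≠ 0)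
    (hD : Dfam c₄ c₆ Δ t = 0) : c4fam c₄ c₆ Δ t ≠ 0 := by
  intro h4
  obtain ⟨u, v, e4, e6, eD⟩ := exists_uv h30 c₄ c₆ Δ hrel hΔ
  have h1 := c4form_shift u v t
  have h2 := Dform_shift u v t
  rw [e4, e6, eD, h4] at h1
  rw [e4, e6, eD, hD, mul_zero] at h2
  obtain ⟨hu, hv⟩ := forms_no_common_zero h30 h1 h2
  have h3 := euler u v
  have h12 : (12 : k) ≠ 0 := by
    have : (12 : k) = 2 ^ 2 * 3 := by norm_num
    rw [this]
    exact mul_ne_zero (pow_ne_zero _ (Untwist.two_ne h30)) (Untwist.three_ne h30)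
  have h5 : (12 : k) * Dform u v = 0 := by
    rw [← h3]
    linear_combination DformU u v * hu + DformV u v * hv
  have h6 : Dform u v = 0 := (mul_eq_zero.1 h5).resolve_left h12
  apply hΔ
  rw [← eD, h6]
  ring

/-- integral version (task SS3). -/
theorem not_dvd_c4fam_of_dvd_Dfam (c₄ c₆ Δ t : ℤ) (hrel : c₄ ^ 3 - c₆ ^ 2 = 1728 * Δ) (p : ℕ)
    (hp : p.Prime) (h30 : ¬ (p : ℤ) ∣ 30 * Δ) (hD : (p : ℤ) ∣ Dfam c₄ c₆ Δ t) :
    ¬ (p : ℤ) ∣ c4fam c₄ c₆ Δ t := by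
  haveI : Fact p.Prime := ⟨hp⟩
  let k := AlgebraicClosure (ZMod p)
  let φ : ℤ →+* k := (algebraMap (ZMod p) k).comp (Int.castRingHom (ZMod p))
  have hφ : ∀ n : ℤ, φ n = 0 ↔ (p : ℤ) ∣ n := by
    intro n
    show algebraMap (ZMod p) k ((n : ℤ) : ZMod p) = 0 ↔ _
    rw [map_eq_zero, ZMod.intCast_zmod_eq_zero_iff_dvd]
  intro h4
  have h30' : (30 : k) ≠ 0 := by
    intro h
    apply h30
    have : φ 30 = 0 := by rw [map_ofNat]; exact h
    exact ((hφ 30).1 this).mul_right _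
  have hΔ' : φ Δ ≠ 0 := by
    intro h
    exact h30 (((hφ Δ).1 h).mul_left _)
  have hrel' : φ c₄ ^ 3 - φ c₆ ^ 2 = 1728 * φ Δ := by
    have := congrArg φ hrel
    simpa using this
  refine c4fam_ne_zero_of_Dfam_eq_zero h30' (φ c₄) (φ c₆) (φ Δ) (φ t) hrel' hΔ' ?_ ?_
  · rw [← Expand.Dfam_map, hφ]; exact hD
  · rw [← Expand.c4fam_map, hφ]; exact h4

end Fermat.Agent.S52
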