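import Fermat.Agent.S52.Model
import Fermat.Agent.S52.Rel
import Fermat.Agent.S52.FamField

/-!
# S52, chapter SS: discriminant and semistability of `famModel W t`
-/

set_option autoImplicit false

namespace Fermat.Agent.S52

open WeierstrassCurve

/-- TASK SS1 (uses the untwisting over `ℂ` or a direct computation):
the fundamental relation of the family. -/
theorem fam_relation (c₄ c₆ Δ t : ℤ) (hrel : c₄ ^ 3 - c₆ ^ 2 = 1728 * Δ) (hΔ : Δ ≠ 0) :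
    c4fam c₄ c₆ Δ t ^ 3 - c6fam c₄ c₆ Δ t ^ 2 = 1728 * (Δ * Dfam c₄ c₆ Δ t ^ 5) := by
  have h := Rel.fam_relation_gen c₄ c₆ Δ t
  rw [show c₄ ^ 3 - c₆ ^ 2 - 1728 * Δ = 0 by linarith, mul_zero] at h
  linarith

/-- TASK SS2. -/
theorem famModel_Δ (W : WeierstrassCurve ℤ) (hΔ : W.Δ ≠ 0) (t : ℤ) (ht : (6 : ℤ) ^ 8 ∣ t) :
    (famModel W t).Δ = W.Δ * Dfam W.c₄ W.c₆ W.Δ t ^ 5 := by
  have h1 := (famModel W t).c_relation
  rw [famModel_c₄ W t ht, famModel_c₆ W t ht,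
    fam_relation W.c₄ W.c₆ W.Δ t W.c_relation.symm hΔ] at h1
  exact mul_left_cancel₀ (by norm_num : (1728 : ℤ) ≠ 0) h1

/-- TASK SS3 (uses the untwisting over `𝔽̄_p`): away from `30 Δ` the family is semistable. -/
theorem not_dvd_c4fam (c₄ c₆ Δ t : ℤ) (hrel : c₄ ^ 3 - c₆ ^ 2 = 1728 * Δ) (p : ℕ) (hp : p.Prime)
    (h30 : ¬ (p : ℤ) ∣ 30 * Δ) (hD : (p : ℤ) ∣ Dfam c₄ c₆ Δ t) : ¬ (p : ℤ) ∣ c4fam c₄ c₆ Δ t :=
  not_dvd_c4fam_of_dvd_Dfam c₄ c₆ Δ t hrel p hp h30 hD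

/-- TASK SS4. -/
theorem famModel_Δ_ne_zero (W : WeierstrassCurve ℤ) (hΔ : W.Δ ≠ 0) (t : ℤ)
    (ht : (6 : ℤ) ^ 8 * 5 * W.Δ ∣ t) : (famModel W t).Δ ≠ 0 := by
  have ht6 : (6 : ℤ) ^ 8 ∣ t := (Dvd.intro _ (by ring : (6 : ℤ) ^ 8 * (5 * W.Δ) = _)).trans ht
  rw [famModel_Δ W hΔ t ht6]
  refine mul_ne_zero hΔ (pow_ne_zero _ ?_)
  intro hD
  have h1 := ht6.trans (dvd_Dfam_sub W.c₄ W.c₆ W.Δ t)
  rw [hD] at h1
  norm_num at h1

theorem famModel_semistable (W : WeierstrassCurve ℤ) (hΔ : W.Δ ≠ 0) (hW : W.IsSemistableModel)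
    (t : ℤ) (ht : (6 : ℤ) ^ 8 * 5 * W.Δ ∣ t) : (famModel W t).IsSemistableModel := by
  have ht6 : (6 : ℤ) ^ 8 ∣ t := (Dvd.intro _ (by ring : (6 : ℤ) ^ 8 * (5 * W.Δ) = _)).trans ht
  intro p hp hpΔ
  have hp' : Prime (p : ℤ) := Nat.prime_iff_prime_int.mp hp
  rw [famModel_Δ W hΔ t ht6] at hpΔ
  rw [famModel_c₄ W t ht6]
  by_cases h30 : (p : ℤ) ∣ 30 * W.Δ
  · have hpt : (p : ℤ) ∣ t := by
      refine Dvd.dvd.trans ?_ ht
      exact h30.trans (Dvd.intro (6 ^ 7) (by ring))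
    have hD : ¬ (p : ℤ) ∣ Dfam W.c₄ W.c₆ W.Δ t := by
      intro hD
      have h1 := hpt.trans (dvd_Dfam_sub W.c₄ W.c₆ W.Δ t)
      have h2 : (p : ℤ) ∣ 1 := by
        have := dvd_sub hD h1
        simpa using this
      exact hp'.not_dvd_one h2
    have hΔp : (p : ℤ) ∣ W.Δ := by
      rcases hp'.dvd_or_dvd hpΔ with h | h
      · exact h
      · exact absurd (hp'.dvd_of_dvd_pow h) hD
    intro hc
    have h1 := hpt.trans (dvd_c4fam_sub W.c₄ W.c₆ W.Δ t)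
    have h2 : (p : ℤ) ∣ W.c₄ := by
      have := dvd_sub hc h1
      simpa using this
    exact hW p hp hΔp h2
  · have hΔp : ¬ (p : ℤ) ∣ W.Δ := fun h => h30 (h.mul_left _)
    have hD : (p : ℤ) ∣ Dfam W.c₄ W.c₆ W.Δ t := by
      rcases hp'.dvd_or_dvd hpΔ with h | h
      · exact absurd h hΔp
      · exact hp'.dvd_of_dvd_pow h
    exact not_dvd_c4fam W.c₄ W.c₆ W.Δ t W.c_relation.symm p hp h30 hD

end Fermat.Agent.S52
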