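import Fermat.Agent.S52.Three
import Fermat.Agent.S52.Semistable
import Fermat.Agent.S52.Irr.Core
import Fermat.Agent.S52.Irr.NoPoly
import Fermat.Agent.S52.Irr.Sqfree

/-!
# S52, chapter IRR (final statement): Hilbert irreducibility "lite" for the 3-division polynomial
of the family.
-/

set_option autoImplicit false

namespace Fermat.Agent.S52

open Polynomial

namespace Irr

/-- the fundamental relation of the family, in `ℤ[t]`. -/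
theorem rel_polyZ (c₄ c₆ Δ : ℤ) (hrel : c₄ ^ 3 - c₆ ^ 2 = 1728 * Δ) (hΔ : Δ ≠ 0) :
    4 * APoly c₄ c₆ Δ ^ 3 + 27 * BPoly c₄ c₆ Δ ^ 2
      = C (-136048896 * Δ) * DPoly c₄ c₆ Δ ^ 5 := by
  apply Polynomial.funext
  intro t
  simp only [eval_add, eval_mul, eval_pow, eval_ofNat, eval_C, eval_APoly, eval_BPoly, eval_DPoly]
  have h := fam_relation c₄ c₆ Δ t hrel hΔ
  linear_combination (-78732) * h

/-- the fundamental relation of the family, in `ℚ[t]`. -/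
theorem rel_polyQ (c₄ c₆ Δ : ℤ) (hrel : c₄ ^ 3 - c₆ ^ 2 = 1728 * Δ) (hΔ : Δ ≠ 0) :
    4 * APoly (c₄ : ℚ) (c₆ : ℚ) (Δ : ℚ) ^ 3 + 27 * BPoly (c₄ : ℚ) (c₆ : ℚ) (Δ : ℚ) ^ 2
      = C (-136048896 * (Δ : ℚ)) * DPoly (c₄ : ℚ) (c₆ : ℚ) (Δ : ℚ) ^ 5 := by
  have h := congrArg (Polynomial.map (Int.castRingHom ℚ)) (rel_polyZ c₄ c₆ Δ hrel hΔ)
  simp only [Polynomial.map_add, Polynomial.map_mul, Polynomial.map_pow, Polynomial.map_ofNat,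
    map_APoly, map_BPoly, map_DPoly, Polynomial.map_C] at h
  simp only [eq_intCast] at h
  rw [h]
  push_cast
  rfl

/-- no polynomial root, in the integral homogeneous form used by `hit_lite`. -/
theorem Ghom_ne_zero (c₄ c₆ Δ : ℤ) (hrel : c₄ ^ 3 - c₆ ^ 2 = 1728 * Δ) (hΔ : Δ ≠ 0)
    (D : ℤ) (U : ℤ[X]) (hD : D ≠ 0) :
    Ghom (APoly c₄ c₆ Δ) (BPoly c₄ c₆ Δ) U (C D) ≠ 0 := by
  intro h
  have hΔQ : (Δ : ℚ) ≠ 0 := by exact_mod_cast hΔ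
  have hDQ : (D : ℚ) ≠ 0 := by exact_mod_cast hD
  have hrelQ : (c₄ : ℚ) ^ 3 - (c₆ : ℚ) ^ 2 = 1728 * (Δ : ℚ) := by exact_mod_cast hrel
  refine no_poly_root (APoly (c₄ : ℚ) (c₆ : ℚ) (Δ : ℚ)) (BPoly (c₄ : ℚ) (c₆ : ℚ) (Δ : ℚ))
    (DPoly (c₄ : ℚ) (c₆ : ℚ) (Δ : ℚ)) (-136048896 * (Δ : ℚ))
    (mul_ne_zero (by norm_num) hΔQ) (rel_polyQ c₄ c₆ Δ hrel hΔ)
    (squarefree_DPoly _ _ _ hrelQ hΔQ) (isCoprime_APoly_DPoly _ _ _ hrelQ hΔQ)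
    (natDegree_APoly_le _ _ _) (four_le_natDegree_DPoly _ _ _ hΔQ)
    (C (1 / (D : ℚ)) * U.map (Int.castRingHom ℚ)) ?_
  have h1 := congrArg (Polynomial.map (Int.castRingHom ℚ)) h
  have h2 : Ghom (APoly (c₄ : ℚ) (c₆ : ℚ) (Δ : ℚ)) (BPoly (c₄ : ℚ) (c₆ : ℚ) (Δ : ℚ))
      (U.map (Int.castRingHom ℚ)) (C (D : ℚ)) = 0 := by
    simpa [Ghom, Polynomial.map_add, Polynomial.map_sub, Polynomial.map_mul, Polynomial.map_pow,
      map_APoly, map_BPoly] using h1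
  have h3 : U.map (Int.castRingHom ℚ)
      = C (D : ℚ) * (C (1 / (D : ℚ)) * U.map (Int.castRingHom ℚ)) := by
    rw [← mul_assoc, ← C_mul, mul_one_div_cancel hDQ, C_1, one_mul]
  rw [h3, Ghom_mul] at h2
  rcases mul_eq_zero.mp h2 with h4 | h4
  · exact absurd (pow_eq_zero_iff (by norm_num) |>.mp h4) (by simpa using hDQ)
  · exact h4

/-- a rational root of `psi3s A B` (`A, B ∈ ℤ`) gives an integer root of `Gq A B`. -/
theorem exists_int_root (A B : ℤ) (x : ℚ) (hx : psi3s (A : ℚ) (B : ℚ) x = 0) :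
    ∃ z : ℤ, Gq A B z = 0 := by
  have hint : IsIntegral ℤ (3 * x : ℚ) := by
    refine ⟨X ^ 4 + C (18 * A) * X ^ 2 + C (108 * B) * X - C (27 * A ^ 2), by monicity!, ?_⟩
    simp only [psi3s] at hx
    simp only [eval₂_sub, eval₂_add, eval₂_mul, eval₂_pow, eval₂_X, eval₂_C]
    simp only [eq_intCast]
    push_cast
    linear_combination 27 * hx
  obtain ⟨z, hz⟩ := IsIntegrallyClosed.isIntegral_iff.mp hint
  refine ⟨z, ?_⟩
  have hz' : (z : ℚ) = 3 * x := by simpa using hz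
  have : ((Gq A B z : ℤ) : ℚ) = 0 := by
    simp only [psi3s] at hx
    simp only [Gq]
    push_cast
    rw [hz']
    linear_combination 27 * hx
  exact_mod_cast this

end Irr

set_option linter.unusedVariables false in
/-- CHAPTER IRR (final statement). -/
theorem exists_t_no_root (c₄ c₆ Δ : ℤ) (hrel : c₄ ^ 3 - c₆ ^ 2 = 1728 * Δ) (hΔ : Δ ≠ 0)
    (h0 : ∃ X : ℚ, psi3s (-27 * (c₄ : ℚ)) (-54 * (c₆ : ℚ)) X = 0)
    (M : ℤ) (hM : M ≠ 0) :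
    ∃ t : ℤ, M ∣ t ∧ ∀ X : ℚ,
      psi3s (-27 * ((c4fam c₄ c₆ Δ t : ℤ) : ℚ)) (-54 * ((c6fam c₄ c₆ Δ t : ℤ) : ℚ)) X ≠ 0 := by
  have hdisc : 4 * ((Irr.APoly c₄ c₆ Δ).eval 0) ^ 3 + 27 * ((Irr.BPoly c₄ c₆ Δ).eval 0) ^ 2 ≠ 0 := by
    rw [Irr.eval_APoly, Irr.eval_BPoly]
    have h4 : c4fam c₄ c₆ Δ 0 = c₄ := by simp [c4fam]
    have h6 : c6fam c₄ c₆ Δ 0 = c₆ := by simp [c6fam]
    rw [h4, h6]
    intro h
    apply hΔ
    have : (-136048896 : ℤ) * Δ = 0 := by linear_combination h + 78732 * hrel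
    simpa using this
  obtain ⟨t, hMt, ht⟩ := Irr.hit_lite (Irr.APoly c₄ c₆ Δ) (Irr.BPoly c₄ c₆ Δ)
    (Irr.natDegree_APoly_le _ _ _) (Irr.natDegree_BPoly_le _ _ _) hdisc
    (fun D U hD => Irr.Ghom_ne_zero c₄ c₆ Δ hrel hΔ D U hD) M hM
  refine ⟨t, hMt, fun x hx => ?_⟩
  obtain ⟨z, hz⟩ := Irr.exists_int_root (-27 * c4fam c₄ c₆ Δ t) (-54 * c6fam c₄ c₆ Δ t) x
    (by push_cast; exact hx)
  apply ht z
  rw [Irr.eval_APoly, Irr.eval_BPoly]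
  exact hz

end Fermat.Agent.S52
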