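import Fermat.Agent.S52.Short
import Fermat.Agent.S52.CH.Ladder
import Fermat.Agent.S52.CH.Comp
import Fermat.Agent.S52.CH.Base
import Fermat.Agent.S52.CH.Zero
import Fermat.Agent.S52.CH.FrobSub
import Fermat.Agent.S52.CH.Endgame

/-!
# S52, chapter CH: Cayley-Hamilton for the Frobenius endomorphism (up to 2-torsion)

`E : y² = x³ + a x + b` over `𝔽_ℓ`, `ℓ ≥ 5`, `N = #E(𝔽_ℓ)` (including the point at infinity).
Then `2 (φ² - (ℓ + 1 - N) φ + ℓ) = 0` on `E(𝔽̄_ℓ)`.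
-/

set_option autoImplicit false

namespace Fermat.Agent.S52

open WeierstrassCurve

/-- CHAPTER CH (final statement). -/
theorem frobenius_CH_two (ℓ : ℕ) [Fact ℓ.Prime] (hℓ : 5 ≤ ℓ) (a b : ZMod ℓ)
    (hΔ : 4 * a ^ 3 + 27 * b ^ 2 ≠ 0)
    (P : SPt (algebraMap (ZMod ℓ) (Fbar ℓ) a) (algebraMap (ZMod ℓ) (Fbar ℓ) b)) :
    (2 : ℤ) • (frobS ℓ a b (frobS ℓ a b P)
      - ((ℓ : ℤ) + 1 - (Nat.card (SPt a b) : ℤ)) • frobS ℓ a b P + (ℓ : ℤ) • P) = 0 := by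
  have hprime : ℓ.Prime := Fact.out
  have h2 : (2 : Fbar ℓ) ≠ 0 := by
    have : ((2 : ℕ) : Fbar ℓ) ≠ 0 := by
      rw [Ne, CharP.cast_eq_zero_iff (Fbar ℓ) ℓ]
      intro h
      have := Nat.le_of_dvd (by norm_num) h
      omega
    exact_mod_cast this
  have hΔ' : 4 * (algebraMap (ZMod ℓ) (Fbar ℓ) a) ^ 3 + 27 * (algebraMap (ZMod ℓ) (Fbar ℓ) b) ^ 2 ≠ 0 := by
    intro h
    apply hΔ
    apply (algebraMap (ZMod ℓ) (Fbar ℓ)).injective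
    rw [map_add, map_mul, map_mul, map_pow, map_pow, map_ofNat, map_ofNat, map_zero]
    exact h
  have hpt := CH.exists_nonsingular_short hΔ' h2
  have hinf : Infinite (Fbar ℓ) := IsAlgClosed.instInfinite
  let H : AddMonoid.End (SPt (algebraMap (ZMod ℓ) (Fbar ℓ) a) (algebraMap (ZMod ℓ) (Fbar ℓ) b)) → ℕ → Prop := fun α D => CH.HasDeg (fun P => α P) D
  have key := CH.endgame H
    (fun α D ⟨n, d, h, hD⟩ => ⟨n, d, h.neg, hD⟩)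
    (fun α β D₁ D₂ D₃ ⟨n₁, d₁, h₁, e₁⟩ ⟨n₂, d₂, h₂, e₂⟩ ⟨n₃, d₃, h₃, e₃⟩ => by
      obtain ⟨n₄, d₄, h₄, e₄⟩ := CH.XRep.ladder hpt h₁ h₂ h₃
      exact ⟨n₄.natDegree, ⟨n₄, d₄, h₄, rfl⟩, by rw [← e₁, ← e₂, ← e₃]; exact e₄⟩)
    (fun α β D D' ⟨n₁, d₁, h₁, e₁⟩ ⟨n₂, d₂, h₂, e₂⟩ => by
      obtain ⟨n, d, h, e⟩ := CH.XRep.comp (map_zero α) h₁ h₂
      exact ⟨n, d, h, by rw [e, e₁, e₂]⟩)
    (fun α h => CH.eq_zero_of_hasDeg_zero hpt α h)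
    ⟨1, 0, CH.xrep_zero, by simp⟩
    ⟨Polynomial.X, 1, CH.xrep_id, by simp⟩
    (frobS ℓ a b) ℓ (Nat.card (SPt a b))
    (hprime.odd_of_ne_two (by omega))
    ⟨Polynomial.X ^ ℓ, 1, CH.xrep_frob ℓ a b, by simp⟩
    (CH.hasDeg_frob_sub_one ℓ a b hℓ hΔ)
  exact DFunLike.congr_fun key P

end Fermat.Agent.S52
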