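import Mathlib
import Fermat.Prelude.Def_FLTPrelim_Modularity

/-!
# S52 (3-5 switch): shared definitions

* `shortW A B` : the curve `y² = x³ + A x + B`.
* the icosahedral forms `Dform, c4form, c6form` (degrees 12, 20, 30) with
  `c4form³ - c6form² = 1728 Dform⁵`, the universal point of order 5 `(xP, yP)` on
  `y² = x³ - 27 c4form x - 54 c6form`, its double `(xQ, yQ)`.
* the twisted family `c4fam, c6fam, Dfam` (polynomials in `t` with coefficients in `ℤ[c₄,c₆,Δ]`):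
  `c4form (u - t D_v) (v + t D_u) = c4fam (c4form u v) (c6form u v) (Dform u v ^ 5) t`, etc.
-/

set_option autoImplicit false

namespace Fermat.Agent.S52

open WeierstrassCurve

/-- `y² = x³ + A x + B`. -/
def shortW {R : Type*} [CommRing R] (A B : R) : WeierstrassCurve R := ⟨0, 0, 0, A, B⟩

section forms

variable {R : Type*} [CommRing R]

/-- the degree 12 icosahedral form. -/
def Dform (u v : R) : R := u * v * (v ^ 10 - 11 * u ^ 5 * v ^ 5 - u ^ 10)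
/-- `∂ Dform / ∂ u`. -/
def DformU (u v : R) : R := v ^ 11 - 66 * u ^ 5 * v ^ 6 - 11 * u ^ 10 * v
/-- `∂ Dform / ∂ v`. -/
def DformV (u v : R) : R := 11 * u * v ^ 10 - 66 * u ^ 6 * v ^ 5 - u ^ 11
/-- the degree 20 icosahedral form. -/
def c4form (u v : R) : R :=
  u ^ 20 + v ^ 20 - 228 * (u ^ 15 * v ^ 5 - u ^ 5 * v ^ 15) + 494 * u ^ 10 * v ^ 10
/-- the degree 30 icosahedral form. -/
def c6form (u v : R) : R :=
  -(u ^ 30 + v ^ 30 + 522 * (u ^ 25 * v ^ 5 - u ^ 5 * v ^ 25)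
    - 10005 * (u ^ 20 * v ^ 10 + u ^ 10 * v ^ 20))

/-- x-coordinate of the universal point `P` of order 5. -/
def xP (u v : R) : R :=
  3 * v ^ 10 + 36 * u * v ^ 9 + 72 * u ^ 2 * v ^ 8 + 108 * u ^ 3 * v ^ 7 + 180 * u ^ 4 * v ^ 6
    + 90 * u ^ 5 * v ^ 5 + 72 * u ^ 6 * v ^ 4 - 36 * u ^ 7 * v ^ 3 + 36 * u ^ 8 * v ^ 2 + 3 * u ^ 10
/-- y-coordinate of the universal point `P` of order 5. -/
def yP (u v : R) : R :=
  108 * u * v ^ 14 + 432 * u ^ 2 * v ^ 13 + 972 * u ^ 3 * v ^ 12 + 1620 * u ^ 4 * v ^ 11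
    + 2700 * u ^ 5 * v ^ 10 + 3132 * u ^ 6 * v ^ 9 + 2268 * u ^ 7 * v ^ 8 + 648 * u ^ 8 * v ^ 7
    + 540 * u ^ 9 * v ^ 6 + 432 * u ^ 11 * v ^ 4 + 108 * u ^ 12 * v ^ 3 + 108 * u ^ 13 * v ^ 2
/-- x-coordinate of `Q = 2P`. -/
def xQ (u v : R) : R :=
  3 * v ^ 10 + 36 * u ^ 2 * v ^ 8 + 36 * u ^ 3 * v ^ 7 + 72 * u ^ 4 * v ^ 6 - 90 * u ^ 5 * v ^ 5
    + 180 * u ^ 6 * v ^ 4 - 108 * u ^ 7 * v ^ 3 + 72 * u ^ 8 * v ^ 2 - 36 * u ^ 9 * v + 3 * u ^ 10
/-- y-coordinate of `Q = 2P`. -/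
def yQ (u v : R) : R :=
  108 * u ^ 2 * v ^ 13 - 108 * u ^ 3 * v ^ 12 + 432 * u ^ 4 * v ^ 11 + 540 * u ^ 6 * v ^ 9
    - 648 * u ^ 7 * v ^ 8 + 2268 * u ^ 8 * v ^ 7 - 3132 * u ^ 9 * v ^ 6 + 2700 * u ^ 10 * v ^ 5
    - 1620 * u ^ 11 * v ^ 4 + 972 * u ^ 12 * v ^ 3 - 432 * u ^ 13 * v ^ 2 + 108 * u ^ 14 * v
/-- slope of the tangent at `P`. -/
def slP (u v : R) : R :=
  3 * v ^ 5 + 12 * u * v ^ 4 + 6 * u ^ 2 * v ^ 3 + 18 * u ^ 3 * v ^ 2 - 6 * u ^ 4 * v + 3 * u ^ 5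
/-- slope of the tangent at `Q`. -/
def slQ (u v : R) : R :=
  3 * v ^ 5 + 6 * u * v ^ 4 + 18 * u ^ 2 * v ^ 3 - 6 * u ^ 3 * v ^ 2 + 12 * u ^ 4 * v - 3 * u ^ 5

/-- `c₄` of the family of curves 5-congruent to the curve with invariants `c₄, c₆, Δ`. -/
def c4fam (c₄ c₆ Δ t : R) : R :=
    ((1) * c₄)
    + ((-20) * c₆) * t
    + ((190) * c₄^2) * t^2
    + ((-1140) * c₄ * c₆) * t^3
    + ((4845) * c₄^3 + (-9849600) * Δ) * t^4
    + ((-15504) * c₄^2 * c₆) * t^5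
    + ((38760) * c₄^4 + (110315520) * Δ * c₄) * t^6
    + ((-77520) * c₄^3 * c₆ + (-315187200) * Δ * c₆) * t^7
    + ((125970) * c₄^5 + (-1946280960) * Δ * c₄^2) * t^8
    + ((-167960) * c₄^4 * c₆ + (13658112000) * Δ * c₄ * c₆) * t^9
    + ((184756) * c₄^6 + (-44921530368) * Δ * c₄^3 + (47202435072000) * Δ^2) * t^10
    + ((-167960) * c₄^5 * c₆ + (94787297280) * Δ * c₄^2 * c₆) * t^11
    + ((125970) * c₄^7 + (-143563829760) * Δ * c₄^4 + (113285844172800) * Δ^2 * c₄) * t^12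
    + ((-77520) * c₄^6 * c₆ + (161627996160) * Δ * c₄^3 * c₆ + (-174285914112000) * Δ^2 * c₆) * t^13
    + ((38760) * c₄^8 + (-137784084480) * Δ * c₄^5 + (858358127001600) * Δ^2 * c₄^2) * t^14
    + ((-15504) * c₄^7 * c₆ + (88870182912) * Δ * c₄^4 * c₆ + (-1394287312896000) * Δ^2 * c₄ * c₆) * t^15
    + ((4845) * c₄^9 + (-42857579520) * Δ * c₄^6 + (1584258959278080) * Δ^2 * c₄^3 + (-3011660595855360000) * Δ^3) * t^16
    + ((-1140) * c₄^8 * c₆ + (15002910720) * Δ * c₄^5 * c₆ + (-1080572667494400) * Δ^2 * c₄^2 * c₆) * t^17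
    + ((190) * c₄^10 + (-3608893440) * Δ * c₄^7 + (473621971599360) * Δ^2 * c₄^4 + (3212437968912384000) * Δ^3 * c₄) * t^18
    + ((-20) * c₄^9 * c₆ + (534159360) * Δ * c₄^6 * c₆ + (-117413668454400) * Δ^2 * c₄^3 * c₆ + (-3381513651486720000) * Δ^3 * c₆) * t^19
    + ((1) * c₄^11 + (-36723456) * Δ * c₄^8 + (12915503529984) * Δ^2 * c₄^5 + (929916254158848000) * Δ^3 * c₄^2) * t^20

/-- `c₆` of the family. -/
def c6fam (c₄ c₆ Δ t : R) : R :=
    ((1) * c₆)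
    + ((-30) * c₄^2) * t
    + ((435) * c₄ * c₆) * t^2
    + ((-4060) * c₄^3 + (5011200) * Δ) * t^3
    + ((27405) * c₄^2 * c₆) * t^4
    + ((-142506) * c₄^4 + (81181440) * Δ * c₄) * t^5
    + ((593775) * c₄^3 * c₆ + (-270604800) * Δ * c₆) * t^6
    + ((-2035800) * c₄^5 + (6765120000) * Δ * c₄^2) * t^7
    + ((5852925) * c₄^4 * c₆ + (-24895641600) * Δ * c₄ * c₆) * t^8
    + ((-14307150) * c₄^6 + (38035008000) * Δ * c₄^3 + (-95599263744000) * Δ^2) * t^9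
    + ((30045015) * c₄^5 * c₆ + (374264478720) * Δ * c₄^2 * c₆) * t^10
    + ((-54627300) * c₄^7 + (-2708438342400) * Δ * c₄^4 + (4359326426726400) * Δ^2 * c₄) * t^11
    + ((86493225) * c₄^6 * c₆ + (11194740172800) * Δ * c₄^3 * c₆ + (-7265544044544000) * Δ^2 * c₆) * t^12
    + ((-119759850) * c₄^8 + (-32579058988800) * Δ * c₄^5 + (35964443020492800) * Δ^2 * c₄^2) * t^13
    + ((145422675) * c₄^7 * c₆ + (74381953190400) * Δ * c₄^4 * c₆) * t^14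
    + ((-155117520) * c₄^9 + (-136970011100160) * Δ * c₄^6 + (237147357613916160) * Δ^2 * c₄^3) * t^15
    + ((145422675) * c₄^8 * c₆ + (209073598156800) * Δ * c₄^5 * c₆ + (-889302591052185600) * Δ^2 * c₄^2 * c₆) * t^16
    + ((-119759850) * c₄^10 + (-267018203980800) * Δ * c₄^7 + (3485281478167756800) * Δ^2 * c₄^4 + (-3615799711383945216000) * Δ^3 * c₄) * t^17
    + ((86493225) * c₄^9 * c₆ + (288067468953600) * Δ * c₄^6 * c₆ + (-7881662179521331200) * Δ^2 * c₄^3 * c₆ + (4017555234871050240000) * Δ^3 * c₆) * t^18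
    + ((-54627300) * c₄^11 + (-263137595846400) * Δ * c₄^8 + (14246737639007846400) * Δ^2 * c₄^5 + (-22138843846894682112000) * Δ^3 * c₄^2) * t^19
    + ((30045015) * c₄^10 * c₆ + (203855471677440) * Δ * c₄^7 * c₆ + (-19214717810198446080) * Δ^2 * c₄^4 * c₆ + (17761823143640432640000) * Δ^3 * c₄ * c₆) * t^20
    + ((-14307150) * c₄^12 + (-133590358598400) * Δ * c₄^9 + (20908591452861235200) * Δ^2 * c₄^6 + (-41215887704266584883200) * Δ^3 * c₄^3 + (29230886087819683430400000) * Δ^4) * t^21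
    + ((5852925) * c₄^11 * c₆ + (73734666508800) * Δ * c₄^8 * c₆ + (-17973273419159961600) * Δ^2 * c₄^5 * c₆ + (23597850747979431936000) * Δ^3 * c₄^2 * c₆) * t^22
    + ((-2035800) * c₄^13 + (-33996351628800) * Δ * c₄^10 + (12476571793647206400) * Δ^2 * c₄^7 + (-29446013759435204198400) * Δ^3 * c₄^4 + (-54903229521470014095360000) * Δ^4 * c₄) * t^23
    + ((593775) * c₄^12 * c₆ + (12942486374400) * Δ * c₄^9 * c₆ + (-6877999592688844800) * Δ^2 * c₄^6 * c₆ + (11627926455526096896000) * Δ^3 * c₄^3 * c₆ + (45752691267891678412800000) * Δ^4 * c₆) * t^24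
    + ((-142506) * c₄^14 + (-3998272513536) * Δ * c₄^11 + (3001181670175408128) * Δ^2 * c₄^8 + (-8215692682431874203648) * Δ^3 * c₄^5 + (162422054001015458365440000) * Δ^4 * c₄^2) * t^25
    + ((27405) * c₄^13 * c₆ + (977532779520) * Δ * c₄^10 * c₆ + (-1009272850407751680) * Δ^2 * c₄^7 * c₆ + (2081773929940962508800) * Δ^3 * c₄^4 * c₆ + (-366021530143133427302400000) * Δ^4 * c₄ * c₆) * t^26
    + ((-4060) * c₄^15 + (-182045871360) * Δ * c₄^12 + (253675112528609280) * Δ^2 * c₄^9 + (-788715656681336340480) * Δ^3 * c₄^6 + (357616591302809622675456000) * Δ^4 * c₄^3 + (-468507558583210786947072000000) * Δ^5) * t^27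
    + ((435) * c₄^14 * c₆ + (24270243840) * Δ * c₄^11 * c₆ + (-44768387043164160) * Δ^2 * c₄^8 * c₆ + (108850924441357516800) * Δ^3 * c₄^5 * c₆ + (-191144576852525234257920000) * Δ^4 * c₄^2 * c₆) * t^28
    + ((-30) * c₄^16 + (-2063335680) * Δ * c₄^13 + (4963496574320640) * Δ^2 * c₄^10 + (-17260936434013962240) * Δ^3 * c₄^7 + (55089045049224669954048000) * Δ^4 * c₄^4 + (77546078662048681977446400000) * Δ^5 * c₄) * t^29
    + ((1) * c₄^15 * c₆ + (84063744) * Δ * c₄^12 * c₆ + (-259826663817216) * Δ^2 * c₄^9 * c₆ + (727025435069644800) * Δ^3 * c₄^6 * c₆ + (-6731430439413948088320000) * Δ^4 * c₄^3 * c₆ + (-51697385774699121318297600000) * Δ^5 * c₆) * t^30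

/-- the discriminant of the family is `Δ * Dfam ^ 5`. -/
def Dfam (c₄ c₆ Δ t : R) : R :=
    ((1))
    + ((-66) * c₄) * t^2
    + ((440) * c₆) * t^3
    + ((-1485) * c₄^2) * t^4
    + ((3168) * c₄ * c₆) * t^5
    + ((-4620) * c₄^3 + (18247680) * Δ) * t^6
    + ((4752) * c₄^2 * c₆) * t^7
    + ((-3465) * c₄^4 + (-109486080) * Δ * c₄) * t^8
    + ((1760) * c₄^3 * c₆ + (243302400) * Δ * c₆) * t^9
    + ((-594) * c₄^5 + (-229920768) * Δ * c₄^2) * t^10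
    + ((120) * c₄^4 * c₆ + (106168320) * Δ * c₄ * c₆) * t^11
    + ((-11) * c₄^6 + (-19464192) * Δ * c₄^3 + (305764761600) * Δ^2) * t^12

end forms

end Fermat.Agent.S52
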