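import Fermat.Agent.S52.Forms
import Fermat.Agent.S52.Spec.Slope

/-!
# S52, chapter FAM: the universal point `(xP, yP)` is a point of order 5
-/

set_option autoImplicit false

namespace Fermat.Agent.S52

open WeierstrassCurve

variable {F : Type*} [Field F] [DecidableEq F]

theorem five_torsion (h6 : (6 : F) ≠ 0) {u v A B : F} (hD : Dform u v ≠ 0)
    (hA : A = -27 * c4form u v) (hB : B = -54 * c6form u v) :
    ∃ h : (shortW A B).toAffine.Nonsingular (xP u v) (yP u v),
      (5 : ℕ) • (Affine.Point.some _ _ h : SPt A B) = 0 := by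
  subst hA hB
  have h2 : (2 : F) ≠ 0 := by
    intro h; apply h6; linear_combination 3 * h
  have h3 : (3 : F) ≠ 0 := by
    intro h; apply h6; linear_combination 2 * h
  have h108 : (108 : F) * Dform u v ^ 2 ≠ 0 := by
    refine mul_ne_zero ?_ (pow_ne_zero _ hD)
    have : (108 : F) = 2 ^ 2 * 3 ^ 3 := by norm_num
    rw [this]
    exact mul_ne_zero (pow_ne_zero _ h2) (pow_ne_zero _ h3)
  have hyP : yP u v ≠ 0 := by
    intro h
    apply h108
    rw [← yP_mul, h, zero_mul]
  have hyQ : yQ u v ≠ 0 := by
    intro h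
    apply h108
    rw [← yQ_mul, h, zero_mul]
  have hP : (shortW (-27 * c4form u v) (-54 * c6form u v)).toAffine.Nonsingular (xP u v) (yP u v) :=
    nonsingular_short.2 ⟨eqP u v, Or.inr (mul_ne_zero h2 hyP)⟩
  have hQ : (shortW (-27 * c4form u v) (-54 * c6form u v)).toAffine.Nonsingular (xQ u v) (yQ u v) :=
    nonsingular_short.2 ⟨eqQ u v, Or.inr (mul_ne_zero h2 hyQ)⟩
  refine ⟨hP, ?_⟩
  have hne : ∀ y : F, y ≠ 0 → ∀ x : F, ¬ (x = x ∧ y = -y) := by
    intro y hy x h
    apply mul_ne_zero h2 hy
    linear_combination h.2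
  obtain ⟨k1, e1⟩ := Spec.add_some_of_slope (l := slP u v) hP hP (hne _ hyP _) (by ring)
    (by linear_combination slP_spec u v)
  obtain ⟨k2, e2⟩ := Spec.add_some_of_slope (l := slQ u v) hQ hQ (hne _ hyQ _) (by ring)
    (by linear_combination slQ_spec u v)
  obtain ⟨k3, e3⟩ := Spec.neg_some_short hP
  have f1 : (Affine.Point.some _ _ hP + Affine.Point.some _ _ hP :
      SPt (-27 * c4form u v) (-54 * c6form u v)) = Affine.Point.some _ _ hQ := by
    rw [e1]
    simp only [Affine.Point.some.injEq]
    constructor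
    · linear_combination -xQ_spec u v
    · linear_combination -yQ_spec u v + slP u v * xQ_spec u v
  have f2 : (Affine.Point.some _ _ hQ + Affine.Point.some _ _ hQ :
      SPt (-27 * c4form u v) (-54 * c6form u v)) = -Affine.Point.some _ _ hP := by
    rw [e2, e3]
    simp only [Affine.Point.some.injEq]
    constructor
    · linear_combination -xP_spec u v
    · linear_combination -yP_spec u v + slQ u v * xP_spec u v
  have : (5 : ℕ) • (Affine.Point.some _ _ hP : SPt (-27 * c4form u v) (-54 * c6form u v)) =
      ((Affine.Point.some _ _ hP + Affine.Point.some _ _ hP) +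
        (Affine.Point.some _ _ hP + Affine.Point.some _ _ hP)) + Affine.Point.some _ _ hP := by
    abel
  rw [this, f1, f2, neg_add_cancel]

end Fermat.Agent.S52
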