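import Fermat.Agent.S52.Defs

/-!
# S52, chapter SS: the integral model `famModel W t` of the member `t` of the family
-/

set_option autoImplicit false

namespace Fermat.Agent.S52

open WeierstrassCurve

/-- The integral Weierstrass model with `c₄ = c4fam .. t`, `c₆ = c6fam .. t`
(valid when `6 ^ 8 ∣ t`); it has the same `a₁, a₂, a₃` as `W`. -/
def famModel (W : WeierstrassCurve ℤ) (t : ℤ) : WeierstrassCurve ℤ where
  a₁ := W.a₁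
  a₂ := W.a₂
  a₃ := W.a₃
  a₄ := W.a₄ - (c4fam W.c₄ W.c₆ W.Δ t - W.c₄) / 48
  a₆ := W.a₆ - ((c6fam W.c₄ W.c₆ W.Δ t - W.c₆)
      + 72 * W.b₂ * ((c4fam W.c₄ W.c₆ W.Δ t - W.c₄) / 48)) / 864

namespace Model

theorem cast_self (t : ℤ) : ((t : ℤ) : ℤ ⧸ Ideal.span {t}) = 0 := by
  have := (Ideal.Quotient.eq_zero_iff_dvd t t).2 dvd_rfl
  simpa using this

end Model

/-- TASK M1. `c4fam - c₄` and `c6fam - c₆` are divisible by `t`. -/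
theorem dvd_c4fam_sub (c₄ c₆ Δ t : ℤ) : t ∣ c4fam c₄ c₆ Δ t - c₄ := by
  rw [← Ideal.Quotient.eq_zero_iff_dvd]
  simp [c4fam, Model.cast_self]

theorem dvd_c6fam_sub (c₄ c₆ Δ t : ℤ) : t ∣ c6fam c₄ c₆ Δ t - c₆ := by
  rw [← Ideal.Quotient.eq_zero_iff_dvd]
  simp [c6fam, Model.cast_self]

theorem dvd_Dfam_sub (c₄ c₆ Δ t : ℤ) : t ∣ Dfam c₄ c₆ Δ t - 1 := by
  rw [← Ideal.Quotient.eq_zero_iff_dvd]
  simp [Dfam, Model.cast_self]

namespace Model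

/-- explicit form of the coefficients of `famModel`. -/
theorem exists_coeffs (W : WeierstrassCurve ℤ) (t : ℤ) (ht : (6 : ℤ) ^ 8 ∣ t) :
    ∃ k m : ℤ, c4fam W.c₄ W.c₆ W.Δ t - W.c₄ = 6 ^ 8 * k ∧ c6fam W.c₄ W.c₆ W.Δ t - W.c₆ = 6 ^ 8 * m ∧
      (famModel W t).a₄ = W.a₄ - 34992 * k ∧
      (famModel W t).a₆ = W.a₆ - (1944 * m + 2916 * W.b₂ * k) := by
  obtain ⟨k, hk⟩ := ht.trans (dvd_c4fam_sub W.c₄ W.c₆ W.Δ t)
  obtain ⟨m, hm⟩ := ht.trans (dvd_c6fam_sub W.c₄ W.c₆ W.Δ t)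
  have h1 : (c4fam W.c₄ W.c₆ W.Δ t - W.c₄) / 48 = 34992 * k := by
    rw [hk]
    apply Int.ediv_eq_of_eq_mul_right (by norm_num)
    ring
  have h2 : ((c6fam W.c₄ W.c₆ W.Δ t - W.c₆)
      + 72 * W.b₂ * ((c4fam W.c₄ W.c₆ W.Δ t - W.c₄) / 48)) / 864
      = 1944 * m + 2916 * W.b₂ * k := by
    rw [h1, hm]
    apply Int.ediv_eq_of_eq_mul_right (by norm_num)
    ring
  refine ⟨k, m, hk, hm, ?_, ?_⟩
  · show W.a₄ - _ = _
    rw [h1]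
  · show W.a₆ - _ = _
    rw [h2]

end Model

/-- TASK M2. -/
theorem famModel_c₄ (W : WeierstrassCurve ℤ) (t : ℤ) (ht : (6 : ℤ) ^ 8 ∣ t) :
    (famModel W t).c₄ = c4fam W.c₄ W.c₆ W.Δ t := by
  obtain ⟨k, m, hk, hm, h4, h6⟩ := Model.exists_coeffs W t ht
  have h1 : (famModel W t).a₁ = W.a₁ := rfl
  have h2 : (famModel W t).a₂ = W.a₂ := rfl
  have h3 : (famModel W t).a₃ = W.a₃ := rfl
  have e : c4fam W.c₄ W.c₆ W.Δ t = W.c₄ + 6 ^ 8 * k := by linarith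
  rw [e]
  simp only [WeierstrassCurve.c₄, WeierstrassCurve.b₂, WeierstrassCurve.b₄, h1, h2, h3, h4]
  ring

theorem famModel_c₆ (W : WeierstrassCurve ℤ) (t : ℤ) (ht : (6 : ℤ) ^ 8 ∣ t) :
    (famModel W t).c₆ = c6fam W.c₄ W.c₆ W.Δ t := by
  obtain ⟨k, m, hk, hm, h4, h6⟩ := Model.exists_coeffs W t ht
  have h1 : (famModel W t).a₁ = W.a₁ := rfl
  have h2 : (famModel W t).a₂ = W.a₂ := rfl
  have h3 : (famModel W t).a₃ = W.a₃ := rfl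
  have e : c6fam W.c₄ W.c₆ W.Δ t = W.c₆ + 6 ^ 8 * m := by linarith
  rw [e]
  simp only [WeierstrassCurve.c₆, WeierstrassCurve.b₂, WeierstrassCurve.b₄, WeierstrassCurve.b₆,
    h1, h2, h3, h4, h6]
  ring

/-- TASK M3: modulo 2 and 3 the model does not change. -/
theorem famModel_reductionMod (W : WeierstrassCurve ℤ) (t : ℤ) (ht : (6 : ℤ) ^ 8 ∣ t)
    (ℓ : ℕ) (hℓ : ℓ = 2 ∨ ℓ = 3) : (famModel W t).reductionMod ℓ = W.reductionMod ℓ := by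
  obtain ⟨k, m, hk, hm, h4, h6⟩ := Model.exists_coeffs W t ht
  have h6' : ((6 : ℤ) : ZMod ℓ) = 0 := by
    rw [ZMod.intCast_zmod_eq_zero_iff_dvd]
    rcases hℓ with rfl | rfl <;> norm_num
  have e4 : (((famModel W t).a₄ : ℤ) : ZMod ℓ) = (W.a₄ : ZMod ℓ) := by
    rw [h4, show W.a₄ - 34992 * k = W.a₄ - 6 * (5832 * k) by ring]
    push_cast at h6' ⊢
    rw [h6']; ring
  have e6 : (((famModel W t).a₆ : ℤ) : ZMod ℓ) = (W.a₆ : ZMod ℓ) := by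
    rw [h6, show W.a₆ - (1944 * m + 2916 * W.b₂ * k) = W.a₆ - 6 * (324 * m + 486 * W.b₂ * k) by ring]
    push_cast at h6' ⊢
    rw [h6']; ring
  unfold WeierstrassCurve.reductionMod
  ext
  · rfl
  · rfl
  · rfl
  · exact e4
  · exact e6

end Fermat.Agent.S52
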