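import Fermat.Agent.S52.Defs

/-!
# S52: basic API for short Weierstrass curves `y² = x³ + A x + B`

`shortMap f hA hB` is the group homomorphism on points induced by a field homomorphism `f`
sending the coefficients `A, B` to `A', B'`.
-/

set_option autoImplicit false

namespace Fermat.Agent.S52

open WeierstrassCurve

/-- points of `y² = x³ + A x + B`. -/
abbrev SPt {F : Type*} [Field F] (A B : F) := (shortW A B).toAffine.Point

section

variable {F : Type*} [Field F] {A B x y : F}

theorem equation_short : (shortW A B).toAffine.Equation x y ↔ y ^ 2 = x ^ 3 + A * x + B := by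
  rw [Affine.equation_iff]
  simp [shortW]

theorem nonsingular_short : (shortW A B).toAffine.Nonsingular x y ↔
    y ^ 2 = x ^ 3 + A * x + B ∧ (3 * x ^ 2 + A ≠ 0 ∨ 2 * y ≠ 0) := by
  rw [Affine.nonsingular_iff', equation_short]
  have e1 : (shortW A B).toAffine.a₁ * y - (3 * x ^ 2 + 2 * (shortW A B).toAffine.a₂ * x
      + (shortW A B).toAffine.a₄) = -(3 * x ^ 2 + A) := by
    simp only [shortW]; ring
  have e2 : 2 * y + (shortW A B).toAffine.a₁ * x + (shortW A B).toAffine.a₃ = 2 * y := by
    simp only [shortW]; ring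
  rw [e1, e2, neg_ne_zero]

theorem shortW_Δ (A B : F) : (shortW A B).Δ = -16 * (4 * A ^ 3 + 27 * B ^ 2) := by
  simp [shortW, WeierstrassCurve.Δ, WeierstrassCurve.b₂, WeierstrassCurve.b₄, WeierstrassCurve.b₆,
    WeierstrassCurve.b₈]
  ring

end

section map

variable {F L : Type*} [Field F] [Field L]

theorem nonsingular_short_map (f : F →+* L) {A B : F} {A' B' : L} (hA : f A = A') (hB : f B = B')
    {x y : F} (h : (shortW A B).toAffine.Nonsingular x y) :
    (shortW A' B').toAffine.Nonsingular (f x) (f y) := by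
  rw [nonsingular_short] at h ⊢
  subst hA hB
  refine ⟨by rw [← map_pow, h.1]; simp, ?_⟩
  rcases h.2 with h2 | h2
  · left
    intro h0
    apply h2
    apply f.injective
    rw [map_add, map_mul, map_pow, map_ofNat, h0, map_zero]
  · right
    intro h0
    apply h2
    apply f.injective
    rw [map_mul, map_ofNat, h0, map_zero]

/-- the underlying function of `shortMap`. -/
def shortMapFun (f : F →+* L) {A B : F} {A' B' : L} (hA : f A = A') (hB : f B = B') :
    SPt A B → SPt A' B'
  | .zero => .zero
  | .some x y h => .some (f x) (f y) (nonsingular_short_map f hA hB h)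

theorem shortW_map (f : F →+* L) (A B : F) : shortW (f A) (f B) = (shortW A B).map f := by
  simp [shortW, WeierstrassCurve.map]

variable [DecidableEq F] [DecidableEq L]

/-- TASK S-Map: additivity of `shortMapFun`. -/
theorem shortMapFun_add (f : F →+* L) {A B : F} {A' B' : L} (hA : f A = A') (hB : f B = B')
    (P Q : SPt A B) :
    shortMapFun f hA hB (P + Q) = shortMapFun f hA hB P + shortMapFun f hA hB Q := by
  subst hA hB
  rcases P with _ | ⟨x1, y1, h1⟩
  · change shortMapFun f rfl rfl (0 + Q) = 0 + shortMapFun f rfl rfl Q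
    rw [zero_add, zero_add]
  rcases Q with _ | ⟨x2, y2, h2⟩
  · change shortMapFun f rfl rfl (_ + 0) = shortMapFun f rfl rfl _ + 0
    rw [add_zero, add_zero]
  have hneg : ∀ x y : F, (shortW (f A) (f B)).toAffine.negY (f x) (f y) =
      f ((shortW A B).toAffine.negY x y) := by
    intro x y
    rw [shortW_map, Affine.map_negY]
  by_cases hxy : x1 = x2 ∧ y1 = (shortW A B).toAffine.negY x2 y2
  · rw [Affine.Point.add_of_Y_eq hxy.1 hxy.2]
    change (0 : SPt (f A) (f B)) =
      Affine.Point.some (f x1) (f y1) _ + Affine.Point.some (f x2) (f y2) _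
    rw [Affine.Point.add_of_Y_eq (congrArg f hxy.1) (by rw [hneg, ← hxy.2])]
  · have hxy' : ¬ (f x1 = f x2 ∧ f y1 = (shortW (f A) (f B)).toAffine.negY (f x2) (f y2)) := by
      rw [hneg]
      exact fun h => hxy ⟨f.injective h.1, f.injective h.2⟩
    rw [Affine.Point.add_some hxy]
    change Affine.Point.some _ _ _ =
      Affine.Point.some (f x1) (f y1) _ + Affine.Point.some (f x2) (f y2) _
    rw [Affine.Point.add_some hxy']
    simp only [Affine.Point.some.injEq]
    rw [shortW_map, Affine.map_slope, Affine.map_addX, Affine.map_addY]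
    exact ⟨rfl, rfl⟩

/-- the group homomorphism on points induced by a field homomorphism. -/
def shortMap (f : F →+* L) {A B : F} {A' B' : L} (hA : f A = A') (hB : f B = B') :
    SPt A B →+ SPt A' B' where
  toFun := shortMapFun f hA hB
  map_zero' := rfl
  map_add' := shortMapFun_add f hA hB

@[simp] theorem shortMap_some (f : F →+* L) {A B : F} {A' B' : L} (hA : f A = A') (hB : f B = B')
    {x y : F} (h : (shortW A B).toAffine.Nonsingular x y) :
    shortMap f hA hB (.some x y h) = .some (f x) (f y) (nonsingular_short_map f hA hB h) := rfl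

theorem shortMap_injective (f : F →+* L) {A B : F} {A' B' : L} (hA : f A = A') (hB : f B = B') :
    Function.Injective (shortMap f hA hB) := by
  rintro (_ | ⟨x, y, h⟩) (_ | ⟨x', y', h'⟩) hPQ
  · rfl
  · exact absurd hPQ (by intro h; cases h)
  · exact absurd hPQ (by intro h; cases h)
  · simp only [shortMap_some, Affine.Point.some.injEq] at hPQ
    obtain ⟨h1, h2⟩ := hPQ
    have e1 := f.injective h1
    have e2 := f.injective h2
    subst e1 e2
    rfl

end map

section frob

/-- algebraic closure of `𝔽_ℓ`. -/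
abbrev Fbar (ℓ : ℕ) [Fact ℓ.Prime] := AlgebraicClosure (ZMod ℓ)

noncomputable instance instDecEqFbar (ℓ : ℕ) [Fact ℓ.Prime] :
    DecidableEq (AlgebraicClosure (ZMod ℓ)) := Classical.decEq _

variable (ℓ : ℕ) [Fact ℓ.Prime]

theorem frobenius_algebraMap (a : ZMod ℓ) :
    frobenius (Fbar ℓ) ℓ (algebraMap (ZMod ℓ) (Fbar ℓ) a) = algebraMap (ZMod ℓ) (Fbar ℓ) a := by
  rw [frobenius_def, ← map_pow, ZMod.pow_card]

/-- the Frobenius endomorphism of `E(𝔽̄_ℓ)`, `E : y² = x³ + a x + b` over `𝔽_ℓ`. -/
noncomputable def frobS (a b : ZMod ℓ) :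
    SPt (algebraMap (ZMod ℓ) (Fbar ℓ) a) (algebraMap (ZMod ℓ) (Fbar ℓ) b) →+
      SPt (algebraMap (ZMod ℓ) (Fbar ℓ) a) (algebraMap (ZMod ℓ) (Fbar ℓ) b) :=
  shortMap (frobenius (Fbar ℓ) ℓ) (frobenius_algebraMap ℓ a) (frobenius_algebraMap ℓ b)

end frob

end Fermat.Agent.S52
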