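import Fermat.Agent.S52.Defs
import Fermat.Agent.S51.Main

/-!
# S52, task THREE: irreducibility of the mod 3 representation and rational roots of the
3-division polynomial (in the short form `3 X⁴ + 6 A X² + 12 B X - A²`, `A = -27 c₄`, `B = -54 c₆`,
`X = 36 x + 3 b₂`).
-/

set_option autoImplicit false

namespace Fermat.Agent.S52

open WeierstrassCurve

/-- the 3-division polynomial of `y² = x³ + A x + B`. -/
def psi3s {R : Type*} [CommRing R] (A B X : R) : R := 3 * X ^ 4 + 6 * A * X ^ 2 + 12 * B * X - A ^ 2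

/-- the 3-division polynomial in the short coordinate `X = 36 x + 3 b₂`. -/
theorem psi3s_eq {R : Type*} [CommRing R] (V : WeierstrassCurve R) (x : R) :
    psi3s (-27 * V.c₄) (-54 * V.c₆) (36 * x + 3 * V.b₂) =
      36 ^ 4 * (3 * x ^ 4 + V.b₂ * x ^ 3 + 3 * V.b₄ * x ^ 2 + 3 * V.b₆ * x + V.b₈) := by
  have h := V.b_relation
  simp only [psi3s, WeierstrassCurve.c₄, WeierstrassCurve.c₆]
  linear_combination (-419904 : R) * h

/-- TASK THREE (from `Fermat.Agent.S51.line3` + `exists_rat_of_fixed`). -/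
theorem exists_root_of_reducible (W : WeierstrassCurve ℤ) (hΔ : W.Δ ≠ 0)
    (h : ¬ W.ModRepIsIrreducible 3) :
    ∃ X : ℚ, psi3s (-27 * (W.c₄ : ℚ)) (-54 * (W.c₆ : ℚ)) X = 0 := by
  obtain ⟨E, hE⟩ : ∃ E : WeierstrassCurve.Affine ℚ, E = W.map (Int.castRingHom ℚ) := ⟨_, rfl⟩
  unfold WeierstrassCurve.ModRepIsIrreducible at h
  rw [← hE] at h
  have hΔKe : (E⁄(AlgebraicClosure ℚ)).Δ = algebraMap ℚ (AlgebraicClosure ℚ) (W.Δ : ℚ) := by
    rw [hE]; simp [WeierstrassCurve.baseChange]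
  have hΔK : (E⁄(AlgebraicClosure ℚ)).Δ ≠ 0 := by
    rw [hΔKe]
    intro h0
    have : (W.Δ : ℚ) = 0 := (map_eq_zero (algebraMap ℚ (AlgebraicClosure ℚ))).1 h0
    exact hΔ (by exact_mod_cast this)
  obtain ⟨x3, hx3, hσ3⟩ := Fermat.Agent.S51.line3 E hΔK h
  obtain ⟨x, hx⟩ := Fermat.Agent.S51.exists_rat_of_fixed x3 hσ3
  refine ⟨36 * x + 3 * E.b₂, ?_⟩
  have hc4 : (W.c₄ : ℚ) = E.c₄ := by rw [hE]; simp
  have hc6 : (W.c₆ : ℚ) = E.c₆ := by rw [hE]; simp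
  rw [hc4, hc6, psi3s_eq]
  have h0 : 3 * x ^ 4 + E.b₂ * x ^ 3 + 3 * E.b₄ * x ^ 2 + 3 * E.b₆ * x + E.b₈ = 0 := by
    apply (algebraMap ℚ (AlgebraicClosure ℚ)).injective
    rw [map_zero, ← hx3, ← hx, Fermat.Agent.S51.psi3]
    simp [WeierstrassCurve.baseChange]
  rw [h0, mul_zero]

end Fermat.Agent.S52
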